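/-
DS-C (Chebotarev), crossing part, file 1: sums over sets of primes.

`dscSum S s = ∑_{p ∈ S, p prime} p ^ (-s)`: monotonicity, finite unions, finite sets are `O(1)`,
bounds from finite partial sums.
-/
import Mathlib
set_option autoImplicit false

open Filter Topology

namespace Fermat.Agent.DS

/-- `∑_{p ∈ S, p prime} p ^ (-s)` -/
noncomputable def dscSum (S : Set ℕ) (s : ℝ) : ℝ :=
  ∑' p : Nat.Primes, S.indicator (fun n : ℕ => (n : ℝ) ^ (-s)) (p : ℕ)

lemma dscSum_term_nonneg (S : Set ℕ) (s : ℝ) (p : Nat.Primes) :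
    0 ≤ S.indicator (fun n : ℕ => (n : ℝ) ^ (-s)) (p : ℕ) :=
  Set.indicator_nonneg (fun n _ => Real.rpow_nonneg (Nat.cast_nonneg n) _) _

lemma dscSum_term_le (S : Set ℕ) (s : ℝ) (p : Nat.Primes) :
    S.indicator (fun n : ℕ => (n : ℝ) ^ (-s)) (p : ℕ) ≤ ((p : ℕ) : ℝ) ^ (-s) := by
  by_cases h : (p : ℕ) ∈ S
  · rw [Set.indicator_of_mem h]
  · rw [Set.indicator_of_notMem h]; exact Real.rpow_nonneg (Nat.cast_nonneg _) _

lemma dscSum_summable (S : Set ℕ) {s : ℝ} (hs : 1 < s) :
    Summable fun p : Nat.Primes => S.indicator (fun n : ℕ => (n : ℝ) ^ (-s)) (p : ℕ) :=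
  Summable.of_nonneg_of_le (dscSum_term_nonneg S s) (dscSum_term_le S s)
    (Nat.Primes.summable_rpow.mpr (by linarith))

lemma dscSum_nonneg (S : Set ℕ) (s : ℝ) : 0 ≤ dscSum S s :=
  tsum_nonneg (dscSum_term_nonneg S s)

lemma dscSum_mono {S S' : Set ℕ} (h : ∀ p : ℕ, p.Prime → p ∈ S → p ∈ S') {s : ℝ} (hs : 1 < s) :
    dscSum S s ≤ dscSum S' s := by
  refine Summable.tsum_le_tsum (fun p => ?_) (dscSum_summable S hs) (dscSum_summable S' hs)
  by_cases hp : (p : ℕ) ∈ S
  · rw [Set.indicator_of_mem hp, Set.indicator_of_mem (h p p.2 hp)]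
  · rw [Set.indicator_of_notMem hp]; exact dscSum_term_nonneg S' s p

lemma dscSum_congr {S S' : Set ℕ} (h : ∀ p : ℕ, p.Prime → (p ∈ S ↔ p ∈ S')) (s : ℝ) :
    dscSum S s = dscSum S' s := by
  refine tsum_congr fun p => ?_
  by_cases hp : (p : ℕ) ∈ S
  · rw [Set.indicator_of_mem hp, Set.indicator_of_mem ((h p p.2).mp hp)]
  · rw [Set.indicator_of_notMem hp, Set.indicator_of_notMem (fun h' => hp ((h p p.2).mpr h'))]

lemma dscSum_union {S S' : Set ℕ} (h : Disjoint S S') {s : ℝ} (hs : 1 < s) :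
    dscSum (S ∪ S') s = dscSum S s + dscSum S' s := by
  rw [dscSum, dscSum, dscSum, ← (dscSum_summable S hs).tsum_add (dscSum_summable S' hs)]
  refine tsum_congr fun p => ?_
  rw [Set.indicator_union_of_disjoint h]

lemma dscSum_empty (s : ℝ) : dscSum ∅ s = 0 := by
  rw [dscSum]
  convert tsum_zero with p
  simp

lemma dscSum_biUnion {ι : Type*} (I : Finset ι) (S : ι → Set ℕ)
    (h : ∀ i ∈ I, ∀ j ∈ I, i ≠ j → Disjoint (S i) (S j)) {s : ℝ} (hs : 1 < s) :
    dscSum (⋃ i ∈ I, S i) s = ∑ i ∈ I, dscSum (S i) s := by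
  classical
  induction I using Finset.induction_on with
  | empty => simp [dscSum_empty]
  | insert a I ha ih =>
    rw [Finset.sum_insert ha, Finset.set_biUnion_insert, dscSum_union _ hs, ih]
    · intro i hi j hj hij
      exact h i (Finset.mem_insert_of_mem hi) j (Finset.mem_insert_of_mem hj) hij
    · rw [Set.disjoint_iUnion₂_right]
      intro i hi
      exact h a (Finset.mem_insert_self _ _) i (Finset.mem_insert_of_mem hi)
        (fun hai => ha (hai ▸ hi))

/-- a finite set of primes contributes at most its cardinality -/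
lemma dscSum_finset_le (T : Finset ℕ) {s : ℝ} (hs : 0 ≤ s) : dscSum (T : Set ℕ) s ≤ T.card := by
  classical
  rw [dscSum]
  have hfin : ∀ p : Nat.Primes, p ∉ (Finset.subtype Nat.Prime T : Finset Nat.Primes) →
      (T : Set ℕ).indicator (fun n : ℕ => (n : ℝ) ^ (-s)) (p : ℕ) = 0 := by
    intro p hp
    rw [Set.indicator_of_notMem]
    intro h
    exact hp (Finset.mem_subtype.mpr (Finset.mem_coe.mp h))
  rw [tsum_eq_sum hfin]
  calc ∑ p ∈ (Finset.subtype Nat.Prime T : Finset Nat.Primes),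
        (T : Set ℕ).indicator (fun n : ℕ => (n : ℝ) ^ (-s)) (p : ℕ)
      ≤ ∑ _p ∈ (Finset.subtype Nat.Prime T : Finset Nat.Primes), (1 : ℝ) := by
        refine Finset.sum_le_sum fun p _ => (dscSum_term_le _ s p).trans ?_
        have h1 : (1 : ℝ) ≤ ((p : ℕ) : ℝ) := by exact_mod_cast p.2.one_lt.le
        exact Real.rpow_le_one_of_one_le_of_nonpos h1 (by linarith)
    _ = ((Finset.subtype Nat.Prime T : Finset Nat.Primes).card : ℝ) := by simp
    _ ≤ T.card := by
        have : (Finset.subtype Nat.Prime T : Finset Nat.Primes).card ≤ T.card := by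
          rw [Finset.card_subtype]
          exact Finset.card_filter_le _ _
        exact_mod_cast this

/-- two sets of primes which agree outside a finite set have the same sum up to `O(1)` -/
lemma dscSum_sub_le_of_finset {S S' : Set ℕ} (T : Finset ℕ)
    (h : ∀ p : ℕ, p.Prime → p ∉ T → p ∈ S → p ∈ S') {s : ℝ} (hs : 1 < s) :
    dscSum S s ≤ dscSum S' s + T.card := by
  have h1 : dscSum S s ≤ dscSum (S' ∪ (T : Set ℕ)) s := by
    refine dscSum_mono (fun p hp hpS => ?_) hs
    by_cases hT : p ∈ T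
    · exact Or.inr (Finset.mem_coe.mpr hT)
    · exact Or.inl (h p hp hT hpS)
  have h2 : dscSum (S' ∪ (T : Set ℕ)) s ≤ dscSum S' s + dscSum (T : Set ℕ) s := by
    have : S' ∪ (T : Set ℕ) = S' ∪ ((T : Set ℕ) \ S') := by rw [Set.union_sdiff_self]
    rw [this, dscSum_union Set.disjoint_sdiff_right hs]
    gcongr
    exact dscSum_mono (fun p _ hp => hp.1) hs
  linarith [dscSum_finset_le T (s := s) (by linarith)]

lemma dscSum_abs_sub_le_of_finset {S S' : Set ℕ} (T : Finset ℕ)
    (h : ∀ p : ℕ, p.Prime → p ∉ T → (p ∈ S ↔ p ∈ S')) {s : ℝ} (hs : 1 < s) :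
    |dscSum S s - dscSum S' s| ≤ T.card := by
  rw [abs_le]
  constructor
  · linarith [dscSum_sub_le_of_finset (S := S') (S' := S) T (fun p hp hT => (h p hp hT).mpr) hs]
  · linarith [dscSum_sub_le_of_finset (S := S) (S' := S') T (fun p hp hT => (h p hp hT).mp) hs]

/-- passing from bounds on all finite partial sums to a bound on the infinite sum -/
lemma dscSum_le_of_finset {S : Set ℕ} {s B : ℝ}
    (h : ∀ P : Finset ℕ, (∀ p ∈ P, p.Prime ∧ p ∈ S) → ∑ p ∈ P, (p : ℝ) ^ (-s) ≤ B) :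
    dscSum S s ≤ B := by
  classical
  rw [dscSum]
  by_cases hsum : Summable fun p : Nat.Primes => S.indicator (fun n : ℕ => (n : ℝ) ^ (-s)) (p : ℕ)
  · refine hsum.tsum_le_of_sum_le fun U => ?_
    have := h ((U.filter fun p : Nat.Primes => (p : ℕ) ∈ S).map
      ⟨fun p : Nat.Primes => (p : ℕ), Nat.Primes.coe_nat_injective⟩) (by
        intro p hp
        rw [Finset.mem_map] at hp
        obtain ⟨q, hq, rfl⟩ := hp
        exact ⟨q.2, (Finset.mem_filter.mp hq).2⟩)
    rw [Finset.sum_map, Finset.sum_filter] at this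
    refine le_trans (le_of_eq ?_) this
    refine Finset.sum_congr rfl fun p _ => ?_
    simp only [Function.Embedding.coeFn_mk]
    by_cases hp : (p : ℕ) ∈ S
    · rw [Set.indicator_of_mem hp, if_pos hp]
    · rw [Set.indicator_of_notMem hp, if_neg hp]
  · rw [tsum_eq_zero_of_not_summable hsum]
    simpa using h ∅ (by simp)

lemma dscSum_antitone (S : Set ℕ) {s t : ℝ} (hs : 1 < s) (hst : s ≤ t) :
    dscSum S t ≤ dscSum S s := by
  refine Summable.tsum_le_tsum (fun p => ?_) (dscSum_summable S (lt_of_lt_of_le hs hst))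
    (dscSum_summable S hs)
  by_cases hp : (p : ℕ) ∈ S
  · rw [Set.indicator_of_mem hp, Set.indicator_of_mem hp]
    have h1 : (1 : ℝ) ≤ ((p : ℕ) : ℝ) := by exact_mod_cast p.2.one_lt.le
    exact Real.rpow_le_rpow_of_exponent_le h1 (by linarith)
  · rw [Set.indicator_of_notMem hp, Set.indicator_of_notMem hp]

end Fermat.Agent.DS
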