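/-
DS-C (Chebotarev), crossing part, file 2: analytic bookkeeping.

* `dsx_bound_of_isBigO` : from `O(1)` near `1⁺` to a uniform bound on `(1, 2]`;
* `dscSum_univ_bound` : `∑_p p ^ (-s) = log (1 / (s - 1)) + O(1)`;
* `dsx_upper_of_lower` : lower density bounds for all classes give upper bounds.
-/
import Fermat.Agent.Lib.DS.Cheb.Defs
import Fermat.Agent.Lib.DS.Cheb.Cross.Sum
import Fermat.Agent.Lib.FrobDensity.PrimeOrbits

set_option autoImplicit false
set_option linter.style.haveILetI false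

open Filter Topology NumberField

namespace Fermat.Agent.DS

open Fermat.Agent.FrobDensity

/-- from `O(1)` near `1⁺` to a uniform bound on `(1, 2]` -/
lemma dsx_bound_of_isBigO (F : ℝ → ℝ) (hF0 : ∀ s, 1 < s → 0 ≤ F s)
    (hanti : ∀ s t, 1 < s → s ≤ t → F t ≤ F s)
    (hO : (fun s : ℝ => F s + Real.log (s - 1)) =O[𝓝[>] 1] (fun _ => (1 : ℝ))) :
    ∃ K : ℝ, ∀ s : ℝ, 1 < s → s ≤ 2 → |F s - Real.log (1 / (s - 1))| ≤ K := by
  obtain ⟨C, hC⟩ := hO.bound
  obtain ⟨u, hu1, hu⟩ := (mem_nhdsGT_iff_exists_Ioo_subset (a := (1:ℝ))).mp hC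
  have hu1' : (1 : ℝ) < u := hu1
  set s₀ : ℝ := (1 + min u 2) / 2 with hs₀
  have hm1 : 1 < min u 2 := lt_min hu1' one_lt_two
  have hs₀1 : 1 < s₀ := by rw [hs₀]; linarith
  have hs₀u : s₀ < u := by
    have := min_le_left u 2
    rw [hs₀]; linarith
  have hs₀2 : s₀ ≤ 2 := by
    have := min_le_right u 2
    rw [hs₀]; linarith
  have hb₀ : |F s₀ + Real.log (s₀ - 1)| ≤ C := by
    have := hu ⟨hs₀1, hs₀u⟩
    simpa using this
  have hlog₀ : Real.log (s₀ - 1) ≤ 0 := Real.log_nonpos (by linarith) (by linarith)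
  refine ⟨C + 2 * |Real.log (s₀ - 1)|, fun s hs1 hs2 => ?_⟩
  have hrw : F s - Real.log (1 / (s - 1)) = F s + Real.log (s - 1) := by
    rw [one_div, Real.log_inv]; ring
  rw [hrw]
  by_cases hss : s < u
  · have := hu ⟨hs1, hss⟩
    have h1 : |F s + Real.log (s - 1)| ≤ C := by simpa using this
    linarith [abs_nonneg (Real.log (s₀ - 1))]
  · have hs0s : s₀ ≤ s := by linarith
    have h1 : F s ≤ F s₀ := hanti s₀ s hs₀1 hs0s
    have h2 : 0 ≤ F s := hF0 s hs1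
    have h3 : Real.log (s₀ - 1) ≤ Real.log (s - 1) :=
      Real.log_le_log (by linarith) (by linarith)
    have h4 : Real.log (s - 1) ≤ 0 := Real.log_nonpos (by linarith) (by linarith)
    have h5 : F s₀ ≤ C + |Real.log (s₀ - 1)| := by
      have := (abs_le.mp hb₀).2
      have h6 := neg_abs_le (Real.log (s₀ - 1))
      linarith
    rw [abs_le]
    have h7 : |Real.log (s₀ - 1)| = -Real.log (s₀ - 1) := abs_of_nonpos hlog₀
    constructor <;> linarith [abs_nonneg (Real.log (s₀ - 1))]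

lemma dsx_log_nonneg {s : ℝ} (hs1 : 1 < s) (hs2 : s ≤ 2) : 0 ≤ Real.log (1 / (s - 1)) := by
  apply Real.log_nonneg
  rw [le_div_iff₀ (by linarith)]
  linarith

/-- the only ideal of `𝓞 ℚ` of norm a prime `l` is `(l)` -/
lemma dsx_idealCount_rat (l : ℕ) [hl : Fact l.Prime] : idealCount ℚ l = 1 := by
  rw [idealCount, Nat.card_eq_one_iff_unique]
  have hfr : Module.finrank ℤ (𝓞 ℚ) = 1 := by
    rw [RingOfIntegers.rank, Module.finrank_self]
  have hnorm : Ideal.absNorm (Ideal.span {((l : ℕ) : 𝓞 ℚ)}) = l := by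
    rw [Ideal.absNorm_span_singleton]
    have : ((l : ℕ) : 𝓞 ℚ) = algebraMap ℤ (𝓞 ℚ) (l : ℤ) := by simp
    rw [this, Algebra.norm_algebraMap, hfr, pow_one, Int.natAbs_natCast]
  constructor
  · constructor
    intro ⟨I, hI⟩ ⟨J, hJ⟩
    have key : ∀ I : Ideal (𝓞 ℚ), Ideal.absNorm I = l → I = Ideal.span {((l : ℕ) : 𝓞 ℚ)} := by
      intro I hI
      obtain ⟨hIp, hmem, -⟩ := po_of_absNorm_eq l hI
      obtain ⟨hSp, -, -⟩ := po_of_absNorm_eq l hnorm
      have hle : Ideal.span {((l : ℕ) : 𝓞 ℚ)} ≤ I := by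
        rw [Ideal.span_singleton_le_iff_mem]; exact hmem
      have hS0 : Ideal.span {((l : ℕ) : 𝓞 ℚ)} ≠ ⊥ := by
        intro h
        rw [h, Ideal.absNorm_bot] at hnorm
        exact hl.out.ne_zero hnorm.symm
      have hmax : (Ideal.span {((l : ℕ) : 𝓞 ℚ)}).IsMaximal := hSp.isMaximal hS0
      exact (hmax.eq_of_le hIp.ne_top hle).symm
    exact Subtype.ext ((key I hI).trans (key J hJ).symm)
  · exact ⟨⟨_, hnorm⟩⟩

/-- `∑_p p ^ (-s) = log (1 / (s - 1)) + O(1)` on `(1, 2]` -/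
theorem dscSum_univ_bound :
    ∃ K : ℝ, ∀ s : ℝ, 1 < s → s ≤ 2 → |dscSum Set.univ s - Real.log (1 / (s - 1))| ≤ K := by
  have h := zp_primes_isBigO ℚ
  have heq : ∀ s : ℝ, (∑' l : Nat.Primes, (idealCount ℚ l : ℝ) * ((l : ℕ) : ℝ) ^ (-s)) =
      dscSum Set.univ s := by
    intro s
    rw [dscSum]
    refine tsum_congr fun l => ?_
    haveI : Fact (l : ℕ).Prime := ⟨l.2⟩
    rw [dsx_idealCount_rat, Nat.cast_one, one_mul, Set.indicator_of_mem (Set.mem_univ _)]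
  simp_rw [heq] at h
  exact dsx_bound_of_isBigO _ (fun s _ => dscSum_nonneg _ s)
    (fun s t hs hst => dscSum_antitone _ hs hst) h


/-- lower bounds for every class + the total ⇒ upper bounds for every class -/
lemma dsx_upper_of_lower {ι : Type*} (I : Finset ι) (c : ι → ℝ) (D : ι → ℝ → ℝ)
    (hc : ∑ i ∈ I, c i = 1)
    (htot : ∃ K : ℝ, ∀ s : ℝ, 1 < s → s ≤ 2 → ∑ i ∈ I, D i s ≤ Real.log (1 / (s - 1)) + K)
    (hlow : ∀ i ∈ I, ∀ ε : ℝ, 0 < ε → ∃ K : ℝ, ∀ s : ℝ, 1 < s → s ≤ 2 →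
      (c i - ε) * Real.log (1 / (s - 1)) - K ≤ D i s)
    (i : ι) (hi : i ∈ I) (ε : ℝ) (hε : 0 < ε) :
    ∃ K : ℝ, ∀ s : ℝ, 1 < s → s ≤ 2 → D i s ≤ (c i + ε) * Real.log (1 / (s - 1)) + K := by
  classical
  obtain ⟨K₀, hK₀⟩ := htot
  have hn : 0 < (I.card : ℝ) := by exact_mod_cast Finset.card_pos.mpr ⟨i, hi⟩
  set ε' : ℝ := ε / I.card with hε'
  have hε'0 : 0 < ε' := div_pos hε hn
  have hch : ∀ j ∈ I, ∃ K : ℝ, ∀ s : ℝ, 1 < s → s ≤ 2 →
      (c j - ε') * Real.log (1 / (s - 1)) - K ≤ D j s := fun j hj => hlow j hj ε' hε'0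
  choose! Kf hKf using hch
  refine ⟨K₀ + ∑ j ∈ I.erase i, Kf j, fun s hs1 hs2 => ?_⟩
  have hlog : 0 ≤ Real.log (1 / (s - 1)) := by
    apply Real.log_nonneg
    rw [le_div_iff₀ (by linarith)]
    linarith
  have h1 := hK₀ s hs1 hs2
  rw [← Finset.add_sum_erase I _ hi] at h1
  have h2 : ∑ j ∈ I.erase i, ((c j - ε') * Real.log (1 / (s - 1)) - Kf j) ≤
      ∑ j ∈ I.erase i, D j s :=
    Finset.sum_le_sum fun j hj => hKf j (Finset.mem_of_mem_erase hj) s hs1 hs2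
  have h3 : ∑ j ∈ I.erase i, ((c j - ε') * Real.log (1 / (s - 1)) - Kf j) =
      ((1 - c i) - (I.erase i).card * ε') * Real.log (1 / (s - 1)) - ∑ j ∈ I.erase i, Kf j := by
    rw [Finset.sum_sub_distrib, ← Finset.sum_mul, Finset.sum_sub_distrib, Finset.sum_const,
      nsmul_eq_mul]
    have : ∑ j ∈ I.erase i, c j = 1 - c i := by
      rw [← hc, ← Finset.add_sum_erase I _ hi]; ring
    rw [this]
  have h4 : ((I.erase i).card : ℝ) * ε' ≤ ε := by
    have hle : ((I.erase i).card : ℝ) ≤ I.card := by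
      exact_mod_cast Finset.card_le_card (Finset.erase_subset _ _)
    calc ((I.erase i).card : ℝ) * ε' ≤ (I.card : ℝ) * ε' :=
          mul_le_mul_of_nonneg_right hle hε'0.le
      _ = ε := by rw [hε']; field_simp
  have h5 : ((I.erase i).card : ℝ) * ε' * Real.log (1 / (s - 1)) ≤ ε * Real.log (1 / (s - 1)) :=
    mul_le_mul_of_nonneg_right h4 hlog
  nlinarith [h1, h2, h3, h5]

end Fermat.Agent.DS
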