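/-
DS-C (Chebotarev), crossing part, file 7: **(C6a)**.

`M / ℚ` Galois with group `𝒢`, `ζ ∈ M` a primitive `m`-th root of unity (`m` prime), `κ` the
cyclotomic character, `g ∈ 𝒢` with `κ` injective on `⟨g⟩` and `M ^ ⟨g⟩` totally complex.  Then, given
Dirichlet's theorem for norm residue classes (`DscDirichlet`, helper5's (C5)),

  `∑_{l : Frob_l ∈ class(g)} l ^ (-s) = |centralizer g|⁻¹ * log (1 / (s - 1)) + O(1)`  (`dsx_class_sum`).
-/
import Fermat.Agent.Lib.DS.Cheb.Cross.PerPrime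
set_option autoImplicit false
set_option linter.style.haveILetI false
set_option linter.unusedSectionVars false

open NumberField
open scoped Pointwise

namespace Fermat.Agent.DS

open Fermat.Agent.FrobDensity Fermat.Agent.CFT.Global

/-- helper5's (C5) (Dirichlet's theorem for the norm residue classes of a totally complex number
field), as a black box. -/
def DscDirichlet : Prop :=
  ∀ (F : Type) [Field F] [NumberField F] [NumberField.IsTotallyComplex F] (m : ℕ) [NeZero m],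
    (∃ C : ℝ, ∀ s : ℝ, 1 < s → s ≤ 2 →
      (Nat.card (dscNormGroup F m) : ℝ)⁻¹ * Real.log (1 / (s - 1)) - C ≤ dscPrimeSum F m 1 s) →
    ∀ a : (ZMod m)ˣ, a ∈ dscNormGroup F m → ∃ C : ℝ, ∀ s : ℝ, 1 < s → s ≤ 2 →
      |dscPrimeSum F m (a : ZMod m) s -
        (Nat.card (dscNormGroup F m) : ℝ)⁻¹ * Real.log (1 / (s - 1))| ≤ C

variable {M : Type} [Field M] [NumberField M] {𝒢 : Type} [Group 𝒢] [Finite 𝒢]
  [MulSemiringAction 𝒢 M] [IsGaloisGroup 𝒢 ℚ M]

variable {m : ℕ} [hm : Fact m.Prime] {ζ : M} (hζ : IsPrimitiveRoot ζ m) (κ : 𝒢 →* (ZMod m)ˣ)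
  (hκ : ∀ h : 𝒢, h • ζ = ζ ^ ((κ h : ZMod m).val))
  (g : 𝒢) (hg : ∀ h ∈ Subgroup.zpowers g, κ h = 1 → h = 1)

include hζ hκ in
/-- the lower bound (hLB) needed by (C5), from the primes which split completely in `M` -/
theorem dsx_lower_bound_one (H : Subgroup 𝒢) :
    ∃ C : ℝ, ∀ s : ℝ, 1 < s → s ≤ 2 →
      (Nat.card H : ℝ)⁻¹ * Real.log (1 / (s - 1)) - C ≤ dscPrimeSum ↥(poFixed M H) m 1 s := by
  classical
  obtain ⟨T₀, hT₀⟩ := dsx_exists_unramified_finset M 𝒢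
  set T : Finset ℕ := insert m T₀ with hT
  set a : ℕ → ℝ := fun l => (idealCount ↥(poFixed M (⊥ : Subgroup 𝒢)) l : ℝ) with ha
  set f₁ : ℕ → ℝ := fun l => if ((l : ℕ) : ZMod m) = 1 then
    (idealCount ↥(poFixed M H) l : ℝ) else 0 with hf₁
  have hHpos : (0 : ℝ) < Nat.card H := by exact_mod_cast Nat.card_pos
  have ha0 : ∀ l, 0 ≤ a l := fun l => Nat.cast_nonneg _
  have hf₁0 : ∀ l, 0 ≤ f₁ l := fun l => by
    simp only [hf₁]; split_ifs <;> simp
  have hcmp : ∀ l : ℕ, l.Prime → l ∉ T → a l ≤ (Nat.card H : ℝ) * f₁ l := by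
    intro l hl hlT
    haveI : Fact l.Prime := ⟨hl⟩
    have hlm : l ≠ m := fun h => hlT (by rw [hT, h]; exact Finset.mem_insert_self _ _)
    have hunr := hT₀ l hl (fun h => hlT (Finset.mem_insert_of_mem h))
    by_cases h0 : idealCount ↥(poFixed M (⊥ : Subgroup 𝒢)) l = 0
    · simp only [ha, h0, Nat.cast_zero]
      exact mul_nonneg hHpos.le (hf₁0 l)
    · have h1 := po_card_mul_idealCount (L := M) l (⊥ : Subgroup 𝒢) hunr
      have h2 := po_card_mul_idealCount (L := M) l H hunr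
      rw [Subgroup.card_bot, one_mul] at h1
      have hne : ((poPrimes M l).filter
          (fun P => MulAction.stabilizer 𝒢 P ≤ (⊥ : Subgroup 𝒢))).Nonempty := by
        rw [Finset.nonempty_iff_ne_empty]
        intro he
        rw [he, Finset.sum_empty] at h1
        exact h0 h1
      obtain ⟨P, hP⟩ := hne
      rw [Finset.mem_filter, mem_poPrimes] at hP
      obtain ⟨⟨hPp, hlP⟩, hle⟩ := hP
      haveI := hPp
      obtain ⟨φ, hφ⟩ := dsx_exists_isFrob (G := 𝒢) hPp hlP (hunr P hPp hlP)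
      have hφ1 : φ = 1 := by
        have : φ ∈ (⊥ : Subgroup 𝒢) := hle (hφ.stabilizer_eq ▸ Subgroup.mem_zpowers φ)
        exact Subgroup.mem_bot.mp this
      have hκφ := dsx_kappa_of_frob hζ κ hκ hlm hlP hφ.2.2.2
      rw [hφ1, map_one, Units.val_one] at hκφ
      have hsub : (poPrimes M l).filter
          (fun P => MulAction.stabilizer 𝒢 P ≤ (⊥ : Subgroup 𝒢)) ⊆
          (poPrimes M l).filter (fun P => MulAction.stabilizer 𝒢 P ≤ H) := by
        intro Q hQ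
        rw [Finset.mem_filter] at hQ ⊢
        exact ⟨hQ.1, hQ.2.trans bot_le⟩
      have h3 := Finset.sum_le_sum_of_subset_of_nonneg (f := fun P : Ideal (𝓞 M) =>
        Nat.card (MulAction.stabilizer 𝒢 P)) hsub (fun _ _ _ => Nat.zero_le _)
      rw [← h1, ← h2] at h3
      simp only [ha, hf₁, if_pos hκφ.symm]
      exact_mod_cast h3
  obtain ⟨K₂, hK₂⟩ : ∃ K : ℝ, ∀ s : ℝ, 1 < s → s ≤ 2 →
      |dsxW a s - Real.log (1 / (s - 1))| ≤ K := by
    refine dsx_bound_of_isBigO _ (fun s _ => dsxW_nonneg ha0 s) (fun s t hs hst => ?_)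
      (zp_primes_isBigO ↥(poFixed M (⊥ : Subgroup 𝒢)))
    exact dsxW_antitone ha0 (dsxSummable_idealCount _ hs)
      (dsxSummable_idealCount _ (lt_of_lt_of_le hs hst)) hst
  refine ⟨(∑ l ∈ T, a l + K₂) / Nat.card H, fun s hs1 hs2 => ?_⟩
  have hsa : DsxSummable a s := dsxSummable_idealCount _ hs1
  have hsf : DsxSummable f₁ s := by
    refine DsxSummable.of_le hf₁0 (fun l => ?_) (dsxSummable_idealCount ↥(poFixed M H) hs1)
    simp only [hf₁]; split_ifs <;> simp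
  have h1 := dsxW_le_add (f := a) (g := fun l => (Nat.card H : ℝ) * f₁ l) T ha0
    (fun l => mul_nonneg hHpos.le (hf₁0 l)) hcmp hsa (hsf.const_mul _) (by linarith)
  rw [dsxW_const_mul] at h1
  have h2 := (abs_le.mp (hK₂ s hs1 hs2)).1
  have h3 : dscPrimeSum ↥(poFixed M H) m 1 s = dsxW f₁ s := dscPrimeSum_eq_dsxW _ m 1 s
  rw [h3]
  have h4 : (Nat.card H : ℝ)⁻¹ * Real.log (1 / (s - 1)) - (∑ l ∈ T, a l + K₂) / Nat.card H =
      (Real.log (1 / (s - 1)) - (∑ l ∈ T, a l + K₂)) / Nat.card H := by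
    field_simp
  rw [h4, div_le_iff₀ hHpos]
  linarith

include hζ hκ hg in
/-- **(C6a)** Chebotarev's theorem for the class of `g` in `Gal(M/ℚ)`, when `M` contains the
`m`-th roots of unity, the cyclotomic character is injective on `⟨g⟩` and the fixed field of `g`
is totally complex. -/
theorem dsx_class_sum (hD : DscDirichlet)
    [NumberField.IsTotallyComplex ↥(poFixed M (Subgroup.zpowers g))] :
    ∃ K : ℝ, ∀ s : ℝ, 1 < s → s ≤ 2 →
      |dscSum (dsxFrobSet M 𝒢 {g}) s -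
        (Nat.card (Subgroup.centralizer ({g} : Set 𝒢)) : ℝ)⁻¹ * Real.log (1 / (s - 1))| ≤ K := by
  classical
  haveI : NeZero m := ⟨hm.out.ne_zero⟩
  set H := Subgroup.zpowers g with hH
  set Z := Subgroup.centralizer ({g} : Set 𝒢) with hZ
  have hcard := dsx_card_normGroup hζ κ hκ g hg
  have hHcard : Nat.card H = orderOf g := Nat.card_zpowers g
  obtain ⟨C₀, hC₀⟩ := dsx_lower_bound_one hζ κ hκ H
  rw [hHcard, ← hcard] at hC₀
  obtain ⟨C, hC⟩ := hD ↥(poFixed M H) m ⟨C₀, hC₀⟩ (κ g) (dsx_kappa_mem_normGroup hζ κ hκ g)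
  rw [hcard] at hC
  obtain ⟨T₀, hT₀⟩ := dsx_exists_unramified_finset M 𝒢
  set T : Finset ℕ := insert m T₀ with hT
  have hord : (0 : ℝ) < orderOf g := by exact_mod_cast orderOf_pos g
  have hZpos : (0 : ℝ) < Nat.card Z := by exact_mod_cast Nat.card_pos
  set c : ℝ := (Nat.card Z : ℝ) / orderOf g with hc
  have hcpos : 0 < c := div_pos hZpos hord
  set f₁ : ℕ → ℝ := fun l => if ((l : ℕ) : ZMod m) = ((κ g : (ZMod m)ˣ) : ZMod m) then
    (idealCount ↥(poFixed M H) l : ℝ) else 0 with hf₁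
  set f₂ : ℕ → ℝ := fun l => c * (dsxFrobSet M 𝒢 {g}).indicator (fun _ => (1 : ℝ)) l with hf₂
  have hf₁0 : ∀ l, 0 ≤ f₁ l := fun l => by
    simp only [hf₁]; split_ifs <;> simp
  have hf₂0 : ∀ l, 0 ≤ f₂ l := fun l =>
    mul_nonneg hcpos.le (Set.indicator_nonneg (fun _ _ => zero_le_one) _)
  have heq : ∀ l : ℕ, l.Prime → l ∉ T → f₁ l = f₂ l := by
    intro l hl hlT
    haveI : Fact l.Prime := ⟨hl⟩
    have hlm : l ≠ m := fun h => hlT (by rw [hT, h]; exact Finset.mem_insert_self _ _)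
    have hunr := hT₀ l hl (fun h => hlT (Finset.mem_insert_of_mem h))
    by_cases hmem : l ∈ dsxFrobSet M 𝒢 {g}
    · obtain ⟨-, P₀, g', hg', hf⟩ := hmem
      rw [Set.mem_singleton_iff] at hg'
      subst hg'
      haveI := hf.1
      have hκl := dsx_kappa_of_frob hζ κ hκ hlm hf.2.1 hf.2.2.2
      have h1 := dsx_idealCount_eq hζ κ hκ g' hg hlm hunr hκl.symm
      have h2 := dsx_card_frob_primes hf
      simp only [hf₁, hf₂, if_pos hκl.symm]
      have hmem' : l ∈ dsxFrobSet M 𝒢 {g'} := ⟨hl, P₀, g', rfl, hf⟩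
      rw [Set.indicator_of_mem hmem', mul_one, h1, hc, eq_div_iff hord.ne']
      exact_mod_cast h2
    · simp only [hf₁, hf₂]
      rw [Set.indicator_of_notMem hmem, mul_zero]
      split_ifs with hκl
      · have h1 := dsx_idealCount_eq hζ κ hκ g hg hlm hunr hκl
        have h2 : {P : Ideal (𝓞 M) | DsxIsFrob l P g} = ∅ := by
          rw [Set.eq_empty_iff_forall_notMem]
          intro P hP
          exact hmem ⟨hl, P, g, rfl, hP⟩
        rw [h1, h2, Set.ncard_empty, Nat.cast_zero]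
      · rfl
  refine ⟨(∑ l ∈ T, (f₁ l + f₂ l) + C) / c, fun s hs1 hs2 => ?_⟩
  have hsf₁ : DsxSummable f₁ s := by
    refine DsxSummable.of_le hf₁0 (fun l => ?_) (dsxSummable_idealCount ↥(poFixed M H) hs1)
    simp only [hf₁]; split_ifs <;> simp
  have hsf₂ : DsxSummable f₂ s := (dsxSummable_indicator _ hs1).const_mul c
  have h1 := dsxW_abs_sub_le T hf₁0 hf₂0 heq hsf₁ hsf₂ (by linarith)
  have h2 : dsxW f₂ s = c * dscSum (dsxFrobSet M 𝒢 {g}) s := by
    rw [dscSum_eq_dsxW, ← dsxW_const_mul]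
  have h3 : dscPrimeSum ↥(poFixed M H) m ((κ g : (ZMod m)ˣ) : ZMod m) s = dsxW f₁ s :=
    dscPrimeSum_eq_dsxW _ m _ s
  have h4 := hC s hs1 hs2
  rw [h3] at h4
  rw [h2] at h1
  have h5 : |c * dscSum (dsxFrobSet M 𝒢 {g}) s - (orderOf g : ℝ)⁻¹ * Real.log (1 / (s - 1))| ≤
      ∑ l ∈ T, (f₁ l + f₂ l) + C := by
    have := abs_sub_le (c * dscSum (dsxFrobSet M 𝒢 {g}) s) (dsxW f₁ s)
      ((orderOf g : ℝ)⁻¹ * Real.log (1 / (s - 1)))
    rw [abs_sub_comm] at h1
    linarith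
  have h6 : dscSum (dsxFrobSet M 𝒢 {g}) s - (Nat.card Z : ℝ)⁻¹ * Real.log (1 / (s - 1)) =
      (c * dscSum (dsxFrobSet M 𝒢 {g}) s - (orderOf g : ℝ)⁻¹ * Real.log (1 / (s - 1))) / c := by
    rw [hc]; field_simp
  rw [h6, abs_div, abs_of_pos hcpos]
  exact div_le_div_of_nonneg_right h5 hcpos.le

end Fermat.Agent.DS
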