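/-
DS-C (Chebotarev), crossing part, file 9: towers `ℚ ⊂ L ⊂ M`, both Galois over `ℚ`, `M ∋ ζ_m`.

* `dsx_isFrob_restrict` : restriction of Frobenius elements;
* `dsxKappa`, `dsxPhi` : cyclotomic character, and `Gal(M/ℚ) → Gal(L/ℚ) × (ZMod m)ˣ`; when the latter is
  bijective: the elements `dsxLift σ τ`, injectivity of the cyclotomic character on `⟨(σ, τ)⟩`,
  centralizers;
* `dsx_isTotallyComplex_fixed` : the fixed field of `⟨(σ, τ)⟩` is totally complex when `L` is and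
  `2 * orderOf σ ∣ orderOf τ`.
-/
import Fermat.Agent.Lib.DS.Cheb.Cross.ClassSum

set_option autoImplicit false
set_option linter.style.haveILetI false
set_option linter.unusedSectionVars false

open NumberField
open scoped Pointwise

namespace Fermat.Agent.DS

open Fermat.Agent.FrobDensity Fermat.Agent.CFT.Global

variable {L : Type} [Field L] [NumberField L] [IsGalois ℚ L]
  {M : Type} [Field M] [NumberField M] [IsGalois ℚ M] [Algebra L M]

/-- restriction of automorphisms is compatible with the rings of integers -/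
lemma dsx_algebraMap_restrict_smul (g : M ≃ₐ[ℚ] M) (x : 𝓞 L) :
    algebraMap (𝓞 L) (𝓞 M) (AlgEquiv.restrictNormalHom L g • x) = g • algebraMap (𝓞 L) (𝓞 M) x := by
  apply RingOfIntegers.ext
  exact AlgEquiv.restrictNormal_commutes g L (x : L)

/-- the restriction of a Frobenius element is a Frobenius element -/
lemma dsx_isFrob_restrict {l : ℕ} [hl : Fact l.Prime] {P : Ideal (𝓞 M)} {g : M ≃ₐ[ℚ] M}
    (h : DsxIsFrob l P g)
    (hin : Ideal.inertia (L ≃ₐ[ℚ] L) (P.under (𝓞 L)) = ⊥) :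
    DsxIsFrob l (P.under (𝓞 L)) (AlgEquiv.restrictNormalHom L g) := by
  obtain ⟨hP, hlP, -, hfr⟩ := h
  haveI := hP
  have hmem : ((l : ℕ) : 𝓞 L) ∈ P.under (𝓞 L) := by
    show algebraMap (𝓞 L) (𝓞 M) ((l : ℕ) : 𝓞 L) ∈ P
    simpa using hlP
  refine ⟨inferInstance, hmem, hin, ?_⟩
  intro x
  show algebraMap (𝓞 L) (𝓞 M) _ ∈ P
  have h1 := hfr (algebraMap (𝓞 L) (𝓞 M) x)
  rw [Frob.natCard_int_quotient_under l hmem, map_sub, map_pow]
  rw [Frob.natCard_int_quotient_under l hlP] at h1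
  have h2 : algebraMap (𝓞 L) (𝓞 M) ((MulSemiringAction.toAlgHom ℤ (𝓞 L)
      (AlgEquiv.restrictNormalHom L g)) x) = g • algebraMap (𝓞 L) (𝓞 M) x :=
    dsx_algebraMap_restrict_smul g x
  rw [h2]
  exact h1

/-- a field containing a totally complex field is totally complex -/
lemma dsx_isTotallyComplex_of_algebra [IsTotallyComplex L] : IsTotallyComplex M := by
  refine ⟨fun w => ?_⟩
  rw [← InfinitePlace.not_isReal_iff_isComplex]
  intro hw
  have h1 := InfinitePlace.IsReal.comap (algebraMap L M) hw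
  exact (InfinitePlace.not_isReal_iff_isComplex.mpr (IsTotallyComplex.isComplex _)) h1

/-- if no element of `H` acts as complex conjugation under an embedding of `M`, the fixed field of
`H` is totally complex (`M ⊇ L` totally complex) -/
theorem dsx_isTotallyComplex_fixed_of_forall [IsTotallyComplex L] (H : Subgroup (M ≃ₐ[ℚ] M))
    (hconj : ∀ h ∈ H, ∀ φ : M →+* ℂ, (∀ x : M, φ (h x) = star (φ x)) → False) :
    IsTotallyComplex ↥(poFixed M H) := by
  refine ⟨fun v => ?_⟩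
  rw [← InfinitePlace.not_isReal_iff_isComplex]
  intro hv
  haveI : IsGalois ↥(poFixed M H) M := IsGaloisGroup.isGalois H ↥(poFixed M H) M
  obtain ⟨w, hw⟩ := InfinitePlace.comap_surjective (k := ↥(poFixed M H)) (K := M) v
  have hw' : w.comap (algebraMap ↥(poFixed M H) M) = v := hw
  haveI : IsTotallyComplex M := dsx_isTotallyComplex_of_algebra (L := L)
  have hwc : w.IsComplex := IsTotallyComplex.isComplex w
  have hram : ¬ InfinitePlace.IsUnramified ↥(poFixed M H) w := by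
    rw [InfinitePlace.not_isUnramified_iff]
    exact ⟨hwc, hw' ▸ hv⟩
  rw [← InfinitePlace.mk_embedding w, InfinitePlace.isUnramified_mk_iff_forall_isConj] at hram
  push Not at hram
  obtain ⟨σ₀, hσ₀, -⟩ := hram
  set h : H := (IsGaloisGroup.mulEquivAlgEquiv H ↥(poFixed M H) M).symm σ₀ with hh
  have hact : ∀ x : M, (h : M ≃ₐ[ℚ] M) x = σ₀ x := by
    intro x
    have h1 : (IsGaloisGroup.mulEquivAlgEquiv H ↥(poFixed M H) M) h = σ₀ :=
      (IsGaloisGroup.mulEquivAlgEquiv H ↥(poFixed M H) M).apply_symm_apply σ₀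
    rw [← h1]
    rfl
  exact hconj (h : M ≃ₐ[ℚ] M) h.2 w.embedding (fun x => by rw [hact x]; exact hσ₀.eq x)

variable {m : ℕ} [hm : Fact m.Prime] {ζ : M} (hζ : IsPrimitiveRoot ζ m)

/-- the cyclotomic character -/
noncomputable def dsxKappa : (M ≃ₐ[ℚ] M) →* (ZMod m)ˣ :=
  haveI : NeZero m := ⟨hm.out.ne_zero⟩
  hζ.autToPow ℚ

lemma dsxKappa_spec (g : M ≃ₐ[ℚ] M) : g • ζ = ζ ^ ((dsxKappa hζ g : ZMod m).val) := by
  haveI : NeZero m := ⟨hm.out.ne_zero⟩
  exact (hζ.autToPow_spec ℚ g).symm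

variable (L) in
/-- restriction to `L` and cyclotomic character -/
noncomputable def dsxPhi : (M ≃ₐ[ℚ] M) →* (L ≃ₐ[ℚ] L) × (ZMod m)ˣ :=
  (AlgEquiv.restrictNormalHom L).prod (dsxKappa hζ)

lemma dsxPhi_apply (g : M ≃ₐ[ℚ] M) :
    dsxPhi L hζ g = (AlgEquiv.restrictNormalHom L g, dsxKappa hζ g) := rfl

section Bij

variable (hΦ : Function.Bijective (dsxPhi L hζ))

/-- the element of `Gal(M/ℚ)` with restriction `σ` and cyclotomic character `τ` -/
noncomputable def dsxLift (σ : L ≃ₐ[ℚ] L) (τ : (ZMod m)ˣ) : M ≃ₐ[ℚ] M :=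
  (MulEquiv.ofBijective (dsxPhi L hζ) hΦ).symm (σ, τ)

lemma dsxPhi_dsxLift (σ : L ≃ₐ[ℚ] L) (τ : (ZMod m)ˣ) :
    dsxPhi L hζ (dsxLift hζ hΦ σ τ) = (σ, τ) :=
  (MulEquiv.ofBijective (dsxPhi L hζ) hΦ).apply_symm_apply (σ, τ)

lemma dsx_restrict_dsxLift (σ : L ≃ₐ[ℚ] L) (τ : (ZMod m)ˣ) :
    AlgEquiv.restrictNormalHom L (dsxLift hζ hΦ σ τ) = σ :=
  congrArg Prod.fst (dsxPhi_dsxLift hζ hΦ σ τ)

lemma dsxKappa_dsxLift (σ : L ≃ₐ[ℚ] L) (τ : (ZMod m)ˣ) :
    dsxKappa hζ (dsxLift hζ hΦ σ τ) = τ :=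
  congrArg Prod.snd (dsxPhi_dsxLift hζ hΦ σ τ)

/-- elements of `⟨(σ, τ)⟩` -/
lemma dsx_mem_zpowers_dsxLift {σ : L ≃ₐ[ℚ] L} {τ : (ZMod m)ˣ} {h : M ≃ₐ[ℚ] M}
    (hh : h ∈ Subgroup.zpowers (dsxLift hζ hΦ σ τ)) :
    ∃ j : ℤ, AlgEquiv.restrictNormalHom L h = σ ^ j ∧ dsxKappa hζ h = τ ^ j := by
  obtain ⟨j, rfl⟩ := Subgroup.mem_zpowers_iff.mp hh
  exact ⟨j, by rw [map_zpow, dsx_restrict_dsxLift], by rw [map_zpow, dsxKappa_dsxLift]⟩

/-- the cyclotomic character is injective on `⟨(σ, τ)⟩` when `orderOf σ ∣ orderOf τ` -/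
lemma dsx_kappa_injOn {σ : L ≃ₐ[ℚ] L} {τ : (ZMod m)ˣ} (hστ : orderOf σ ∣ orderOf τ) :
    ∀ h ∈ Subgroup.zpowers (dsxLift hζ hΦ σ τ), dsxKappa hζ h = 1 → h = 1 := by
  intro h hh hκ
  obtain ⟨j, hj1, hj2⟩ := dsx_mem_zpowers_dsxLift hζ hΦ hh
  rw [hκ] at hj2
  have h1 : (orderOf τ : ℤ) ∣ j := orderOf_dvd_iff_zpow_eq_one.mpr hj2.symm
  have h2 : (orderOf σ : ℤ) ∣ j := (Int.natCast_dvd_natCast.mpr hστ).trans h1
  have h3 : σ ^ j = 1 := orderOf_dvd_iff_zpow_eq_one.mp h2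
  apply hΦ.1
  rw [map_one, dsxPhi_apply, hj1, h3, hκ]
  rfl

/-- an element of `⟨(σ, τ)⟩` with cyclotomic character `-1` is trivial on `L`,
when `2 * orderOf σ ∣ orderOf τ` -/
lemma dsx_restrict_eq_one_of_kappa {σ : L ≃ₐ[ℚ] L} {τ : (ZMod m)ˣ}
    (hστ : 2 * orderOf σ ∣ orderOf τ) :
    ∀ h ∈ Subgroup.zpowers (dsxLift hζ hΦ σ τ), dsxKappa hζ h = -1 →
      AlgEquiv.restrictNormalHom L h = 1 := by
  intro h hh hκ
  obtain ⟨j, hj1, hj2⟩ := dsx_mem_zpowers_dsxLift hζ hΦ hh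
  rw [hκ] at hj2
  have h0 : τ ^ (2 * j) = 1 := by
    rw [mul_comm, zpow_mul, ← hj2]; norm_num
  have h1 : (orderOf τ : ℤ) ∣ 2 * j := orderOf_dvd_iff_zpow_eq_one.mpr h0
  have h2 : ((2 * orderOf σ : ℕ) : ℤ) ∣ 2 * j := (Int.natCast_dvd_natCast.mpr hστ).trans h1
  have h3 : (orderOf σ : ℤ) ∣ j := by
    push_cast at h2
    exact (mul_dvd_mul_iff_left (by norm_num : (2 : ℤ) ≠ 0)).mp h2
  rw [hj1]
  exact orderOf_dvd_iff_zpow_eq_one.mp h3

/-- the centralizer of `(σ, τ)` -/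
lemma dsx_card_centralizer_dsxLift (σ : L ≃ₐ[ℚ] L) (τ : (ZMod m)ˣ) :
    Nat.card (Subgroup.centralizer ({dsxLift hζ hΦ σ τ} : Set (M ≃ₐ[ℚ] M))) =
      Nat.card (Subgroup.centralizer ({σ} : Set (L ≃ₐ[ℚ] L))) * (m - 1) := by
  haveI : NeZero m := ⟨hm.out.ne_zero⟩
  set e := MulEquiv.ofBijective (dsxPhi L hζ) hΦ with he
  have hcardZ : Nat.card (ZMod m)ˣ = m - 1 := by
    rw [Nat.card_eq_fintype_card, ZMod.card_units_eq_totient, Nat.totient_prime hm.out]
  rw [← hcardZ, ← Nat.card_prod]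
  refine Nat.card_congr ?_
  refine
    { toFun := fun x => (⟨(e x.1).1, ?_⟩, (e x.1).2)
      invFun := fun y => ⟨e.symm (y.1.1, y.2), ?_⟩
      left_inv := fun x => by simp
      right_inv := fun y => by simp }
  · have hx := x.2
    rw [Subgroup.mem_centralizer_iff] at hx ⊢
    intro z hz
    rw [Set.mem_singleton_iff] at hz
    subst hz
    have h1 := hx _ rfl
    have h2 := congrArg (fun w => (e w).1) h1
    simp only [map_mul] at h2
    have h3 : (e (dsxLift hζ hΦ z τ)).1 = z := dsx_restrict_dsxLift hζ hΦ z τ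
    rw [Prod.fst_mul, Prod.fst_mul, h3] at h2
    exact h2
  · rw [Subgroup.mem_centralizer_iff]
    intro z hz
    rw [Set.mem_singleton_iff] at hz
    subst hz
    apply e.injective
    have hy := y.1.2
    rw [Subgroup.mem_centralizer_iff] at hy
    have h1 := hy σ rfl
    have h3 : e (dsxLift hζ hΦ σ τ) = (σ, τ) := dsxPhi_dsxLift hζ hΦ σ τ
    rw [map_mul, map_mul, e.apply_symm_apply, h3]
    refine Prod.ext ?_ ?_
    · exact h1
    · simp [mul_comm]

end Bij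

include hζ in
/-- an automorphism acting as complex conjugation under some embedding inverts the roots of unity -/
lemma dsx_smul_eq_inv_of_conj (h : M ≃ₐ[ℚ] M) (φ : M →+* ℂ)
    (hφ : ∀ x : M, φ (h x) = star (φ x)) : h ζ * ζ = 1 := by
  apply φ.injective
  rw [map_mul, hφ, map_one]
  have h1 : (φ ζ) ^ m = 1 := by rw [← map_pow, hζ.pow_eq_one, map_one]
  have h2 : ‖φ ζ‖ = 1 := Complex.norm_eq_one_of_pow_eq_one h1 hm.out.ne_zero
  have h3 : star (φ ζ) * φ ζ = ((Complex.normSq (φ ζ) : ℝ) : ℂ) := by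
    rw [mul_comm]; exact Complex.mul_conj (φ ζ)
  rw [h3, Complex.normSq_eq_norm_sq, h2]
  norm_num

/-- an automorphism acting as complex conjugation under some embedding has cyclotomic
character `-1` -/
lemma dsxKappa_eq_neg_one_of_conj (h : M ≃ₐ[ℚ] M) (φ : M →+* ℂ)
    (hφ : ∀ x : M, φ (h x) = star (φ x)) : dsxKappa hζ h = -1 := by
  haveI : NeZero m := ⟨hm.out.ne_zero⟩
  have h1 := dsx_smul_eq_inv_of_conj hζ h φ hφ
  have h2 : h ζ = ζ ^ ((dsxKappa hζ h : ZMod m).val) := dsxKappa_spec hζ h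
  rw [h2, ← pow_succ] at h1
  have h3 := (hζ.pow_eq_one_iff_dvd _).mp h1
  have h4 : (((dsxKappa hζ h : ZMod m).val + 1 : ℕ) : ZMod m) = 0 :=
    (ZMod.natCast_eq_zero_iff _ _).mpr h3
  rw [Nat.cast_add, ZMod.natCast_zmod_val, Nat.cast_one] at h4
  apply Units.ext
  rw [Units.val_neg, Units.val_one]
  exact eq_neg_of_add_eq_zero_left h4


/-- **total complexity**: the fixed field of `⟨(σ, τ)⟩` is totally complex when `L` is totally complex
and `2 * orderOf σ ∣ orderOf τ` -/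
theorem dsx_isTotallyComplex_fixed [IsTotallyComplex L] (hΦ : Function.Bijective (dsxPhi L hζ))
    {σ : L ≃ₐ[ℚ] L} {τ : (ZMod m)ˣ} (hστ : 2 * orderOf σ ∣ orderOf τ) :
    IsTotallyComplex ↥(poFixed M (Subgroup.zpowers (dsxLift hζ hΦ σ τ))) := by
  refine dsx_isTotallyComplex_fixed_of_forall (L := L) _ fun h hh φ hφ => ?_
  have h1 := dsxKappa_eq_neg_one_of_conj hζ h φ hφ
  have h2 := dsx_restrict_eq_one_of_kappa hζ hΦ hστ h hh h1
  -- `φ` restricted to `L` is a real embedding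
  have h3 : ∀ x : L, h (algebraMap L M x) = algebraMap L M x := by
    intro x
    have := AlgEquiv.restrictNormal_commutes h L x
    rw [← this]
    have h4 : h.restrictNormal L = 1 := h2
    rw [h4]; rfl
  have hreal : ComplexEmbedding.IsReal (φ.comp (algebraMap L M)) := by
    rw [ComplexEmbedding.isReal_iff]
    ext x
    rw [ComplexEmbedding.conjugate_coe_eq, RingHom.comp_apply]
    have := hφ (algebraMap L M x)
    rw [h3 x] at this
    exact this.symm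
  have h5 : (InfinitePlace.mk (φ.comp (algebraMap L M))).IsReal :=
    InfinitePlace.isReal_mk_iff.mpr hreal
  exact (InfinitePlace.not_isReal_iff_isComplex.mpr (IsTotallyComplex.isComplex _)) h5

end Fermat.Agent.DS
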