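/-
DS-C (Chebotarev), crossing part, file 10: the cyclotomic extension `M = L(ζ_m)` of a Galois number
field `L`, for a prime `m` unramified in `L`.

* `dsx_irreducible_cyclotomic` : the `m`-th cyclotomic polynomial is irreducible over `L` (Eisenstein);
* `dsx_isGalois_of_cyclotomic` : `M / ℚ` is Galois;
* `dsx_phi_bijective` : `Gal(M/ℚ) = Gal(L/ℚ) × (ZMod m)ˣ`.
-/
import Fermat.Agent.Lib.DS.Cheb.Cross.Tower

set_option autoImplicit false
set_option linter.style.haveILetI false
set_option linter.unusedSectionVars false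

open NumberField Polynomial
open scoped Pointwise

namespace Fermat.Agent.DS

open Fermat.Agent.FrobDensity Fermat.Agent.CFT.Global

/-- the `m`-th cyclotomic polynomial (`m` prime) is irreducible over a number field in which `m`
is unramified (Eisenstein's criterion at a prime above `m`) -/
theorem dsx_irreducible_cyclotomic (L : Type) [Field L] [NumberField L] {m : ℕ} (hm : m.Prime)
    (hmd : ¬ m ∣ Ideal.absNorm (differentIdeal ℤ (𝓞 L))) :
    Irreducible (cyclotomic m L) := by
  haveI : Fact m.Prime := ⟨hm⟩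
  haveI hpm : (Ideal.span {((m : ℕ) : ℤ)}).IsMaximal := isMaximal_span_natCast_int m
  haveI := hpm.isPrime
  obtain ⟨⟨𝔓, h𝔓p, h𝔓lo⟩⟩ := (Ideal.span {((m : ℕ) : ℤ)}).nonempty_primesOver (S := 𝓞 L)
  haveI := h𝔓p
  haveI := h𝔓lo
  have hmem : ((m : ℕ) : 𝓞 L) ∈ 𝔓 := by
    have : ((m : ℕ) : ℤ) ∈ 𝔓.under ℤ := by
      rw [← h𝔓lo.over]; exact Ideal.subset_span rfl
    simpa using this
  have he := ramificationIdx_eq_one_of_not_dvd_absNorm_different L hm hmd 𝔓 hmem
  have hp0 : Ideal.span {((m : ℕ) : ℤ)} ≠ ⊥ := by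
    rw [Ne, Ideal.span_singleton_eq_bot]
    exact_mod_cast hm.ne_zero
  have hmap : (Ideal.span {((m : ℕ) : ℤ)}).map (algebraMap ℤ (𝓞 L)) =
      Ideal.span {((m : ℕ) : 𝓞 L)} := by
    rw [Ideal.map_span, Set.image_singleton]; simp
  have hnot : ((m : ℕ) : 𝓞 L) ∉ 𝔓 ^ 2 := by
    intro h2
    have h3 : (Ideal.span {((m : ℕ) : ℤ)}).map (algebraMap ℤ (𝓞 L)) ≤ 𝔓 ^ 2 := by
      rw [hmap, Ideal.span_singleton_le_iff_mem]; exact h2
    have h4 : (Ideal.span {((m : ℕ) : ℤ)}).map (algebraMap ℤ (𝓞 L)) ≤ 𝔓 := by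
      rw [hmap, Ideal.span_singleton_le_iff_mem]; exact hmem
    have h5 := (Ideal.ramificationIdx'_ne_one_iff h4).mpr h3
    rw [Ideal.ramificationIdx'_eq_ramificationIdx _ _ hp0] at h5
    exact h5 he
  -- the Eisenstein polynomial over `𝓞 L`
  set f : (𝓞 L)[X] := ((cyclotomic m ℤ).comp (X + 1)).map (algebraMap ℤ (𝓞 L)) with hf
  have hmonicZ : ((cyclotomic m ℤ).comp (X + 1)).Monic := by
    rw [show (X + 1 : ℤ[X]) = X + C 1 by simp]
    refine (cyclotomic.monic m ℤ).comp (monic_X_add_C 1) fun h => ?_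
    rw [natDegree_X_add_C] at h
    exact zero_ne_one h.symm
  have hmonic : f.Monic := hmonicZ.map _
  have hdegZ : ((cyclotomic m ℤ).comp (X + 1)).natDegree = m - 1 := by
    rw [natDegree_comp, show (X + 1 : ℤ[X]) = X + C 1 by simp, natDegree_X_add_C, mul_one,
      natDegree_cyclotomic, Nat.totient_prime hm]
  have hdeg : f.natDegree = m - 1 := by
    rw [hf, hmonicZ.natDegree_map, hdegZ]
  have hE := cyclotomic_comp_X_add_one_isEisensteinAt m
  have hc0 : ((cyclotomic m ℤ).comp (X + 1)).coeff 0 = (m : ℤ) := by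
    rw [coeff_zero_eq_eval_zero, eval_comp, eval_add, eval_X, eval_one, zero_add,
      eval_one_cyclotomic_prime]
  have hEis : f.IsEisensteinAt 𝔓 := by
    refine Monic.isEisensteinAt_of_mem_of_notMem hmonic h𝔓p.ne_top (fun {i} hi => ?_) ?_
    · rw [hf, coeff_map]
      rw [hdeg, ← hdegZ] at hi
      have h1 := hE.mem hi
      rw [Ideal.submodule_span_eq, Ideal.mem_span_singleton] at h1
      obtain ⟨c, hc⟩ := h1
      rw [hc, map_mul]
      refine Ideal.mul_mem_right _ _ ?_
      simpa using hmem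
    · rw [hf, coeff_map, hc0]
      simpa using hnot
  have hirr : Irreducible f := by
    refine hEis.irreducible h𝔓p hmonic.isPrimitive ?_
    rw [hdeg]
    have := hm.two_le
    omega
  have hirrL : Irreducible (f.map (algebraMap (𝓞 L) L)) :=
    (Monic.irreducible_iff_irreducible_map_fraction_map hmonic).mp hirr
  have hfL : f.map (algebraMap (𝓞 L) L) = algEquivAevalXAddC (1 : L) (cyclotomic m L) := by
    rw [hf, map_map, ← IsScalarTower.algebraMap_eq, Polynomial.map_comp, map_cyclotomic]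
    simp [algEquivAevalXAddC, aeval_def, eval₂_eq_eval_map, comp]
  rw [hfL] at hirrL
  exact (MulEquiv.irreducible_iff (algEquivAevalXAddC (1 : L)).toMulEquiv).mp hirrL

/-- a cyclotomic extension of a Galois number field is Galois over `ℚ` -/
theorem dsx_isGalois_of_cyclotomic (L : Type) [Field L] [NumberField L] [IsGalois ℚ L]
    (M : Type) [Field M] [NumberField M] [Algebra L M]
    (m : ℕ) [hm : Fact m.Prime] [IsCyclotomicExtension {m} L M] : IsGalois ℚ M := by
  haveI : NeZero m := ⟨hm.out.ne_zero⟩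
  obtain ⟨ζ, hζ⟩ := IsCyclotomicExtension.exists_isPrimitiveRoot L M (Set.mem_singleton m)
    hm.out.ne_zero
  set E₁ : IntermediateField ℚ M := (IsScalarTower.toAlgHom ℚ L M).fieldRange with hE₁
  set E₂ : IntermediateField ℚ M := IntermediateField.adjoin ℚ {ζ} with hE₂
  have h1 : @Normal ℚ ↥E₁ _ _ E₁.algebra' := by
    let e : @AlgEquiv ℚ L ↥E₁ _ _ _ _ E₁.algebra' :=
      AlgEquiv.ofInjectiveField (IsScalarTower.toAlgHom ℚ L M)
    exact @Normal.of_algEquiv ℚ _ L _ _ ↥E₁ _ E₁.algebra' _ e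
  have hcyc := hζ.intermediateField_adjoin_isCyclotomicExtension ℚ
  have h2g := @IsCyclotomicExtension.isGalois {m} ℚ _ _ _ _ hcyc
  have h2 := h2g.to_normal
  have hmem : ∀ x : M, x ∈ E₁ ⊔ E₂ := by
    intro x
    have hx : x ∈ Algebra.adjoin L ({ζ} : Set M) := by
      rw [IsCyclotomicExtension.adjoin_primitive_root_eq_top hζ]; trivial
    induction hx using Algebra.adjoin_induction with
    | mem y hy =>
      rw [Set.mem_singleton_iff] at hy
      subst hy
      exact (le_sup_right : E₂ ≤ E₁ ⊔ E₂) (IntermediateField.mem_adjoin_simple_self ℚ y)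
    | algebraMap y => exact (le_sup_left : E₁ ≤ E₁ ⊔ E₂) ⟨y, rfl⟩
    | add y z _ _ hy hz => exact (E₁ ⊔ E₂).add_mem hy hz
    | mul y z _ _ hy hz => exact (E₁ ⊔ E₂).mul_mem hy hz
  have htop : E₁ ⊔ E₂ = ⊤ := eq_top_iff.mpr fun x _ => hmem x
  have h3 := @IntermediateField.normal_sup ℚ M _ _ _ E₁ E₂ h1 h2
  rw [htop] at h3
  have h4 := @Normal.of_algEquiv ℚ _ _ _ _ M _ _ h3 (IntermediateField.topEquiv (F := ℚ) (E := M))
  haveI : Normal ℚ M := h4
  exact ⟨⟩


/-- `Gal(L(ζ_m)/ℚ) = Gal(L/ℚ) × (ZMod m)ˣ` when the `m`-th cyclotomic polynomial is irreducible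
over `L` -/
theorem dsx_phi_bijective (L : Type) [Field L] [NumberField L] [IsGalois ℚ L]
    (M : Type) [Field M] [NumberField M] [IsGalois ℚ M] [Algebra L M]
    {m : ℕ} [hm : Fact m.Prime] [IsCyclotomicExtension {m} L M] {ζ : M}
    (hζ : IsPrimitiveRoot ζ m) (hirr : Irreducible (Polynomial.cyclotomic m L)) :
    Function.Bijective (dsxPhi L hζ) := by
  haveI : NeZero m := ⟨hm.out.ne_zero⟩
  haveI : Fact (1 < m) := ⟨hm.out.one_lt⟩
  have hinj : Function.Injective (dsxPhi L hζ) := by
    rw [injective_iff_map_eq_one]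
    intro g hg
    rw [dsxPhi_apply, Prod.mk_eq_one] at hg
    obtain ⟨hr, hκ⟩ := hg
    have h1 : g ζ = ζ := by
      have := dsxKappa_spec hζ g
      rw [hκ, Units.val_one, ZMod.val_one, pow_one] at this
      exact this
    have h2 : ∀ y : L, g (algebraMap L M y) = algebraMap L M y := by
      intro y
      have := AlgEquiv.restrictNormal_commutes g L y
      rw [← this]
      have h4 : g.restrictNormal L = 1 := hr
      rw [h4]; rfl
    ext x
    have hx : x ∈ Algebra.adjoin L ({ζ} : Set M) := by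
      rw [IsCyclotomicExtension.adjoin_primitive_root_eq_top hζ]; trivial
    rw [AlgEquiv.one_apply]
    induction hx using Algebra.adjoin_induction with
    | mem y hy =>
      rw [Set.mem_singleton_iff] at hy
      subst hy
      exact h1
    | algebraMap y => exact h2 y
    | add y z _ _ hy hz => rw [map_add, hy, hz]
    | mul y z _ _ hy hz => rw [map_mul, hy, hz]
  refine hinj.bijective_of_nat_card_le ?_
  rw [Nat.card_prod, IsGalois.card_aut_eq_finrank, IsGalois.card_aut_eq_finrank,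
    ← Module.finrank_mul_finrank ℚ L M, IsCyclotomicExtension.finrank M hirr,
    Nat.card_eq_fintype_card, ZMod.card_units_eq_totient]

end Fermat.Agent.DS
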