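/-
DS-C (Chebotarev), crossing part, file 8: in a cyclic group of order divisible by `d ^ k`, the
proportion of the elements whose order is divisible by `d` is at least `1 - d / 2 ^ k`.
-/
import Mathlib
set_option autoImplicit false

namespace Fermat.Agent.DS

/-- if `d ^ k ∣ N`, `t ∣ N` and `d ∤ t`, then `t ∣ N / r ^ k` for some prime `r ∣ d` -/
lemma dsx_exists_prime_dvd {d k N t : ℕ} (hk : 0 < k) (hN : 0 < N) (hdk : d ^ k ∣ N)
    (htN : t ∣ N) (hdt : ¬ d ∣ t) : ∃ r : ℕ, r.Prime ∧ r ∣ d ∧ t ∣ N / r ^ k := by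
  have ht0 : t ≠ 0 := fun h => by rw [h, zero_dvd_iff] at htN; omega
  have hd0 : d ≠ 0 := by
    rintro rfl
    rw [zero_pow hk.ne', zero_dvd_iff] at hdk
    omega
  rw [← Nat.factorization_le_iff_dvd hd0 ht0, Finsupp.le_def] at hdt
  push Not at hdt
  obtain ⟨r, hr⟩ := hdt
  have hrd : r ∈ d.factorization.support := by
    rw [Finsupp.mem_support_iff]; omega
  have hrp : r.Prime := Nat.prime_of_mem_primeFactors (Nat.support_factorization d ▸ hrd)
  have hrdvd : r ∣ d := Nat.dvd_of_mem_primeFactors (Nat.support_factorization d ▸ hrd)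
  refine ⟨r, hrp, hrdvd, ?_⟩
  have hrk0 : r ^ k ≠ 0 := pow_ne_zero _ hrp.ne_zero
  have key : r ^ k * t ∣ N := by
    rw [← Nat.factorization_le_iff_dvd (mul_ne_zero hrk0 ht0) hN.ne', Finsupp.le_def]
    intro q
    rw [Nat.factorization_mul hrk0 ht0, Nat.factorization_pow, Finsupp.add_apply,
      Finsupp.smul_apply, smul_eq_mul]
    have h1 : t.factorization q ≤ N.factorization q :=
      (Nat.factorization_le_iff_dvd ht0 hN.ne').mpr htN q
    by_cases hq : q = r
    · subst hq
      rw [hrp.factorization_self, mul_one]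
      have h2 : (d ^ k).factorization q ≤ N.factorization q :=
        (Nat.factorization_le_iff_dvd (pow_ne_zero _ hd0) hN.ne').mpr hdk q
      rw [Nat.factorization_pow, Finsupp.smul_apply, smul_eq_mul] at h2
      have h3 : k * (t.factorization q + 1) ≤ k * d.factorization q :=
        Nat.mul_le_mul_left k hr
      have h4 : t.factorization q ≤ k * t.factorization q := Nat.le_mul_of_pos_left _ hk
      nlinarith
    · have : r.factorization q = 0 := by
        rw [hrp.factorization, Finsupp.single_apply, if_neg (Ne.symm hq)]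
      rw [this, mul_zero, zero_add]
      exact h1
  exact Nat.dvd_div_of_mul_dvd key

open Classical in
/-- in a cyclic group of order divisible by `d ^ k`, most elements have order divisible by `d` -/
theorem dsx_card_good {Z : Type*} [Group Z] [Fintype Z] [IsCyclic Z] (d k : ℕ) (hd : 0 < d)
    (hk : 0 < k) (hdk : d ^ k ∣ Fintype.card Z) :
    (Fintype.card Z : ℝ) * (1 - d / 2 ^ k) ≤
      ((Finset.univ.filter (fun τ : Z => d ∣ orderOf τ)).card : ℝ) := by
  set N := Fintype.card Z with hN
  have hNpos : 0 < N := Fintype.card_pos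
  -- the bad elements
  have hbad : (Finset.univ.filter (fun τ : Z => ¬ d ∣ orderOf τ)) ⊆
      d.primeFactors.biUnion (fun r => Finset.univ.filter (fun τ : Z => τ ^ (N / r ^ k) = 1)) := by
    intro τ hτ
    rw [Finset.mem_filter] at hτ
    obtain ⟨r, hrp, hrd, hr⟩ := dsx_exists_prime_dvd hk hNpos hdk (orderOf_dvd_card (x := τ)) hτ.2
    rw [Finset.mem_biUnion]
    refine ⟨r, Nat.mem_primeFactors.mpr ⟨hrp, hrd, hd.ne'⟩, ?_⟩
    rw [Finset.mem_filter]
    exact ⟨Finset.mem_univ _, orderOf_dvd_iff_pow_eq_one.mp hr⟩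
  have hcard1 : ((Finset.univ.filter (fun τ : Z => ¬ d ∣ orderOf τ)).card : ℝ) ≤
      ∑ r ∈ d.primeFactors, (N : ℝ) / 2 ^ k := by
    calc ((Finset.univ.filter (fun τ : Z => ¬ d ∣ orderOf τ)).card : ℝ)
        ≤ ((d.primeFactors.biUnion
            (fun r => Finset.univ.filter (fun τ : Z => τ ^ (N / r ^ k) = 1))).card : ℝ) := by
          exact_mod_cast Finset.card_le_card hbad
      _ ≤ ∑ r ∈ d.primeFactors,
            ((Finset.univ.filter (fun τ : Z => τ ^ (N / r ^ k) = 1)).card : ℝ) := by
          exact_mod_cast Finset.card_biUnion_le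
      _ ≤ ∑ r ∈ d.primeFactors, (N : ℝ) / 2 ^ k := by
          refine Finset.sum_le_sum fun r hr => ?_
          have hrp := Nat.prime_of_mem_primeFactors hr
          have hrd := Nat.dvd_of_mem_primeFactors hr
          have hrkN : r ^ k ∣ N := (pow_dvd_pow_of_dvd hrd k).trans hdk
          have hpos : 0 < N / r ^ k :=
            Nat.div_pos (Nat.le_of_dvd hNpos hrkN) (pow_pos hrp.pos k)
          have h1 := IsCyclic.card_pow_eq_one_le (α := Z) hpos
          have h2 : ((N / r ^ k : ℕ) : ℝ) = (N : ℝ) / (r : ℝ) ^ k := by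
            rw [Nat.cast_div hrkN (by exact_mod_cast (pow_pos hrp.pos k).ne')]
            push_cast; rfl
          have h3 : (N : ℝ) / (r : ℝ) ^ k ≤ (N : ℝ) / 2 ^ k := by
            apply div_le_div_of_nonneg_left (Nat.cast_nonneg _) (by positivity)
            exact pow_le_pow_left₀ (by norm_num) (by exact_mod_cast hrp.two_le) k
          calc ((Finset.univ.filter (fun τ : Z => τ ^ (N / r ^ k) = 1)).card : ℝ)
              ≤ ((N / r ^ k : ℕ) : ℝ) := by exact_mod_cast h1
            _ ≤ (N : ℝ) / 2 ^ k := h2 ▸ h3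
  have hcard2 : ∑ _r ∈ d.primeFactors, (N : ℝ) / 2 ^ k ≤ (d : ℝ) * ((N : ℝ) / 2 ^ k) := by
    rw [Finset.sum_const, nsmul_eq_mul]
    refine mul_le_mul_of_nonneg_right ?_ (by positivity)
    have : d.primeFactors.card ≤ d := by
      calc d.primeFactors.card ≤ (Finset.Icc 1 d).card := by
            apply Finset.card_le_card
            intro r hr
            rw [Finset.mem_Icc]
            exact ⟨(Nat.prime_of_mem_primeFactors hr).pos,
              Nat.le_of_dvd hd (Nat.dvd_of_mem_primeFactors hr)⟩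
        _ = d := by simp
    exact_mod_cast this
  have hsplit : (Finset.univ.filter (fun τ : Z => d ∣ orderOf τ)).card +
      (Finset.univ.filter (fun τ : Z => ¬ d ∣ orderOf τ)).card = N := by
    rw [Finset.card_filter_add_card_filter_not, Finset.card_univ]
  have hsplit' : ((Finset.univ.filter (fun τ : Z => d ∣ orderOf τ)).card : ℝ) +
      ((Finset.univ.filter (fun τ : Z => ¬ d ∣ orderOf τ)).card : ℝ) = N := by
    exact_mod_cast hsplit
  have : (N : ℝ) * (1 - d / 2 ^ k) = N - d * (N / 2 ^ k) := by ring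
  rw [this]
  linarith

end Fermat.Agent.DS
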