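/-
DS-C (Chebotarev), crossing part, file 11: **(C6b)**, abstract form.
-/
import Fermat.Agent.Lib.DS.Cheb.Cross.Tower
import Fermat.Agent.Lib.DS.Cheb.Cross.Count
set_option autoImplicit false
set_option linter.style.haveILetI false
set_option linter.unusedSectionVars false

open NumberField
open scoped Pointwise

namespace Fermat.Agent.DS

open Fermat.Agent.FrobDensity Fermat.Agent.CFT.Global

variable {L : Type} [Field L] [NumberField L] [IsGalois ℚ L]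
  {M : Type} [Field M] [NumberField M] [IsGalois ℚ M] [Algebra L M]
  {m : ℕ} [hm : Fact m.Prime] {ζ : M} (hζ : IsPrimitiveRoot ζ m)

open Classical in
/-- **(C6b), abstract form**: lower density bound for the class of `σ ∈ Gal(L/ℚ)` from a tower
`L ⊂ M ∋ ζ_m` with `Gal(M/ℚ) = Gal(L/ℚ) × (ZMod m)ˣ` and `(2 * orderOf σ) ^ k ∣ m - 1`. -/
theorem dsx_lower_of_tower (hD : DscDirichlet) [IsTotallyComplex L]
    (hΦ : Function.Bijective (dsxPhi L hζ)) (σ : L ≃ₐ[ℚ] L) (k : ℕ) (hk : 0 < k)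
    (hdk : (2 * orderOf σ) ^ k ∣ m - 1) :
    ∃ K : ℝ, ∀ s : ℝ, 1 < s → s ≤ 2 →
      (1 - (2 * orderOf σ : ℝ) / 2 ^ k) *
        ((Nat.card (Subgroup.centralizer ({σ} : Set (L ≃ₐ[ℚ] L))) : ℝ)⁻¹ *
          Real.log (1 / (s - 1))) - K ≤
        dscSum (dsxFrobSet L (L ≃ₐ[ℚ] L) {σ}) s := by
  haveI : NeZero m := ⟨hm.out.ne_zero⟩
  set d := 2 * orderOf σ with hd
  have hd0 : 0 < d := by have := orderOf_pos σ; omega
  set 𝒯 : Finset (ZMod m)ˣ := Finset.univ.filter (fun τ : (ZMod m)ˣ => d ∣ orderOf τ) with h𝒯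
  set c : ℝ := (Nat.card (Subgroup.centralizer ({σ} : Set (L ≃ₐ[ℚ] L))) : ℝ) with hc
  have hcpos : 0 < c := by rw [hc]; exact_mod_cast Nat.card_pos
  have hm1 : (0 : ℝ) < ((m - 1 : ℕ) : ℝ) := by
    have := hm.out.two_le
    exact_mod_cast (by omega : 0 < m - 1)
  -- (C6a) for every good `τ`
  have hA : ∀ τ : (ZMod m)ˣ, d ∣ orderOf τ → ∃ K : ℝ, ∀ s : ℝ, 1 < s → s ≤ 2 →
      |dscSum (dsxFrobSet M (M ≃ₐ[ℚ] M) {dsxLift hζ hΦ σ τ}) s -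
        (c * ((m - 1 : ℕ) : ℝ))⁻¹ * Real.log (1 / (s - 1))| ≤ K := by
    intro τ hτ
    haveI := dsx_isTotallyComplex_fixed hζ hΦ hτ
    have h1 := dsx_class_sum hζ (dsxKappa hζ) (dsxKappa_spec hζ) (dsxLift hζ hΦ σ τ)
      (dsx_kappa_injOn hζ hΦ ((Nat.dvd_mul_left _ 2).trans hτ)) hD
    rw [dsx_card_centralizer_dsxLift hζ hΦ σ τ, Nat.cast_mul] at h1
    exact h1
  choose! Kf hKf using hA
  obtain ⟨T₀, hT₀⟩ := dsx_exists_unramified_finset L (L ≃ₐ[ℚ] L)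
  set T : Finset ℕ := insert m T₀ with hT
  set S : (ZMod m)ˣ → Set ℕ := fun τ =>
    dsxFrobSet M (M ≃ₐ[ℚ] M) {dsxLift hζ hΦ σ τ} \ (T : Set ℕ) with hS
  -- the sets `S τ` are contained in the Frobenius set of `σ`
  have hsub : ∀ τ, S τ ⊆ dsxFrobSet L (L ≃ₐ[ℚ] L) {σ} := by
    rintro τ l ⟨⟨hl, P, g, hg, hf⟩, hlT⟩
    rw [Set.mem_singleton_iff] at hg
    subst hg
    haveI : Fact l.Prime := ⟨hl⟩
    haveI := hf.1
    have hlT₀ : l ∉ T₀ := fun h => hlT (Finset.mem_coe.mpr (Finset.mem_insert_of_mem h))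
    have hmem : ((l : ℕ) : 𝓞 L) ∈ P.under (𝓞 L) := by
      show algebraMap (𝓞 L) (𝓞 M) ((l : ℕ) : 𝓞 L) ∈ P
      simpa using hf.2.1
    have hin := hT₀ l hl hlT₀ (P.under (𝓞 L)) inferInstance hmem
    have h1 := dsx_isFrob_restrict (L := L) hf hin
    rw [dsx_restrict_dsxLift] at h1
    exact ⟨hl, P.under (𝓞 L), σ, rfl, h1⟩
  -- and pairwise disjoint
  have hdisj : ∀ τ ∈ 𝒯, ∀ τ' ∈ 𝒯, τ ≠ τ' → Disjoint (S τ) (S τ') := by
    intro τ _ τ' _ hne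
    rw [Set.disjoint_left]
    rintro l ⟨⟨hl, P, g, hg, hf⟩, hlT⟩ ⟨⟨-, P', g', hg', hf'⟩, -⟩
    rw [Set.mem_singleton_iff] at hg hg'
    subst hg hg'
    haveI : Fact l.Prime := ⟨hl⟩
    have hlm : l ≠ m := fun h => hlT (Finset.mem_coe.mpr (by rw [hT, h]; exact Finset.mem_insert_self _ _))
    haveI := hf.1
    haveI := hf'.1
    have h1 := dsx_kappa_of_frob hζ (dsxKappa hζ) (dsxKappa_spec hζ) hlm hf.2.1 hf.2.2.2
    have h2 := dsx_kappa_of_frob hζ (dsxKappa hζ) (dsxKappa_spec hζ) hlm hf'.2.1 hf'.2.2.2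
    rw [dsxKappa_dsxLift] at h1 h2
    exact hne (Units.ext (h1.trans h2.symm))
  have hgood := dsx_card_good (Z := (ZMod m)ˣ) d k hd0 hk (by
    rw [ZMod.card_units_eq_totient, Nat.totient_prime hm.out]; exact hdk)
  rw [ZMod.card_units_eq_totient, Nat.totient_prime hm.out] at hgood
  refine ⟨∑ τ ∈ 𝒯, (Kf τ + T.card), fun s hs1 hs2 => ?_⟩
  have hlog := dsx_log_nonneg hs1 hs2
  have h1 : dscSum (⋃ τ ∈ 𝒯, S τ) s ≤ dscSum (dsxFrobSet L (L ≃ₐ[ℚ] L) {σ}) s := by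
    refine dscSum_mono (fun p _ hp => ?_) hs1
    simp only [Set.mem_iUnion] at hp
    obtain ⟨τ, -, hp⟩ := hp
    exact hsub τ hp
  rw [dscSum_biUnion 𝒯 S hdisj hs1] at h1
  have h2 : ∀ τ ∈ 𝒯, (c * ((m - 1 : ℕ) : ℝ))⁻¹ * Real.log (1 / (s - 1)) - (Kf τ + T.card) ≤
      dscSum (S τ) s := by
    intro τ hτ
    have h3 := hKf τ (Finset.mem_filter.mp hτ).2 s hs1 hs2
    have h4 := dscSum_sub_le_of_finset (S := dsxFrobSet M (M ≃ₐ[ℚ] M) {dsxLift hζ hΦ σ τ})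
      (S' := S τ) T (fun p _ hpT hp => ⟨hp, fun h => hpT (Finset.mem_coe.mp h)⟩) hs1
    have h5 := (abs_le.mp h3).1
    linarith
  have h3 := Finset.sum_le_sum h2
  rw [Finset.sum_sub_distrib, Finset.sum_const, nsmul_eq_mul] at h3
  have h4 : (1 - (d : ℝ) / 2 ^ k) * (c⁻¹ * Real.log (1 / (s - 1))) ≤
      (𝒯.card : ℝ) * ((c * ((m - 1 : ℕ) : ℝ))⁻¹ * Real.log (1 / (s - 1))) := by
    have h5 : (1 - (d : ℝ) / 2 ^ k) ≤ (𝒯.card : ℝ) / ((m - 1 : ℕ) : ℝ) := by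
      rw [le_div_iff₀ hm1, mul_comm]
      exact hgood
    have h6 : (𝒯.card : ℝ) * ((c * ((m - 1 : ℕ) : ℝ))⁻¹ * Real.log (1 / (s - 1))) =
        ((𝒯.card : ℝ) / ((m - 1 : ℕ) : ℝ)) * (c⁻¹ * Real.log (1 / (s - 1))) := by
      field_simp
    rw [h6]
    exact mul_le_mul_of_nonneg_right h5 (mul_nonneg (inv_nonneg.mpr hcpos.le) hlog)
  have h7 : ((2 * orderOf σ : ℕ) : ℝ) = 2 * (orderOf σ : ℝ) := by push_cast; ring
  rw [hd, h7] at h4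
  linarith

end Fermat.Agent.DS
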