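/-
DS-C (Chebotarev), crossing part, file 12: Chebotarev's density theorem (Dirichlet density form) for
totally complex Galois number fields, from Dirichlet's theorem for norm residue classes
(`DscDirichlet`).

* `dsx_lower_bound` : **(C6b)** lower bound for the class of `σ`;
* `dsx_chebotarev_tc` : two-sided bound for a conjugation-stable set `C`.
-/
import Fermat.Agent.Lib.DS.Cheb.Cross.Cyclo
import Fermat.Agent.Lib.DS.Cheb.Cross.Lower

set_option autoImplicit false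
set_option linter.style.haveILetI false
set_option linter.unusedSectionVars false

open NumberField
open scoped Pointwise

namespace Fermat.Agent.DS

open Fermat.Agent.FrobDensity Fermat.Agent.CFT.Global

/-- **(C6b)** lower density bound for the class of `σ` in a totally complex Galois number field -/
theorem dsx_lower_bound (hD : DscDirichlet) {L : Type} [Field L] [NumberField L] [IsGalois ℚ L]
    [IsTotallyComplex L] (σ : L ≃ₐ[ℚ] L) (ε : ℝ) (hε : 0 < ε) :
    ∃ K : ℝ, ∀ s : ℝ, 1 < s → s ≤ 2 →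
      ((Nat.card (Subgroup.centralizer ({σ} : Set (L ≃ₐ[ℚ] L))) : ℝ)⁻¹ - ε) *
        Real.log (1 / (s - 1)) - K ≤ dscSum (dsxFrobSet L (L ≃ₐ[ℚ] L) {σ}) s := by
  set d := 2 * orderOf σ with hd
  have hd0 : 0 < d := by have := orderOf_pos σ; omega
  -- choose `k`
  obtain ⟨n, hn⟩ := pow_unbounded_of_one_lt ((d : ℝ) / ε) (one_lt_two : (1 : ℝ) < 2)
  set k := n + 1 with hk
  have hk0 : 0 < k := Nat.succ_pos n
  have hdk : (d : ℝ) / 2 ^ k ≤ ε := by
    have h1 : (2 : ℝ) ^ n ≤ 2 ^ k := pow_le_pow_right₀ (by norm_num) (Nat.le_succ n)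
    have h2 : (d : ℝ) / ε < 2 ^ k := lt_of_lt_of_le hn h1
    rw [div_lt_iff₀ hε] at h2
    rw [div_le_iff₀ (by positivity)]
    linarith
  -- choose `m`
  have hn0 : Ideal.absNorm (differentIdeal ℤ (𝓞 L)) ≠ 0 := by
    rw [Ne, Ideal.absNorm_eq_zero_iff]
    exact differentIdeal_ne_bot
  obtain ⟨m, hmp, hgt, hmod⟩ := Nat.exists_prime_gt_modEq_one (k := d ^ k)
    (Ideal.absNorm (differentIdeal ℤ (𝓞 L))) (pow_ne_zero _ hd0.ne')
  have hmd : ¬ m ∣ Ideal.absNorm (differentIdeal ℤ (𝓞 L)) := fun h =>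
    absurd (Nat.le_of_dvd (Nat.pos_of_ne_zero hn0) h) (not_le.mpr hgt)
  haveI : Fact m.Prime := ⟨hmp⟩
  have hirr := dsx_irreducible_cyclotomic L hmp hmd
  haveI : IsGalois ℚ (CyclotomicField m L) := dsx_isGalois_of_cyclotomic L (CyclotomicField m L) m
  have hζ := IsCyclotomicExtension.zeta_spec m L (CyclotomicField m L)
  have hΦ := dsx_phi_bijective L (CyclotomicField m L) hζ hirr
  have hdvd : d ^ k ∣ m - 1 := (Nat.modEq_iff_dvd' hmp.one_lt.le).mp hmod.symm
  obtain ⟨K, hK⟩ := dsx_lower_of_tower hζ hD hΦ σ k hk0 hdvd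
  refine ⟨K, fun s hs1 hs2 => ?_⟩
  have h1 := hK s hs1 hs2
  have hlog := dsx_log_nonneg hs1 hs2
  set c : ℝ := (Nat.card (Subgroup.centralizer ({σ} : Set (L ≃ₐ[ℚ] L))) : ℝ) with hc
  have hc1 : 1 ≤ c := by rw [hc]; exact_mod_cast Nat.card_pos
  have hcinv : c⁻¹ ≤ 1 := inv_le_one_of_one_le₀ hc1
  have hcinv0 : 0 ≤ c⁻¹ := inv_nonneg.mpr (by linarith)
  have h7 : ((2 * orderOf σ : ℕ) : ℝ) = 2 * (orderOf σ : ℝ) := by push_cast; ring
  rw [hd, h7] at hdk
  have h2 : (c⁻¹ - ε) * Real.log (1 / (s - 1)) ≤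
      (1 - (2 * (orderOf σ : ℝ)) / 2 ^ k) * (c⁻¹ * Real.log (1 / (s - 1))) := by
    have h3 : c⁻¹ - ε ≤ (1 - (2 * (orderOf σ : ℝ)) / 2 ^ k) * c⁻¹ := by nlinarith
    calc (c⁻¹ - ε) * Real.log (1 / (s - 1))
        ≤ ((1 - (2 * (orderOf σ : ℝ)) / 2 ^ k) * c⁻¹) * Real.log (1 / (s - 1)) :=
          mul_le_mul_of_nonneg_right h3 hlog
      _ = _ := by ring
  linarith

lemma dsx_card_class_mul {G : Type*} [Group G] [Finite G] (g : G) :
    (ConjClasses.mk g).carrier.ncard * Nat.card (Subgroup.centralizer ({g} : Set G)) =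
      Nat.card G := by
  rw [Subgroup.nat_card_centralizer_nat_card_stabilizer, ← ConjAct.orbit_eq_carrier_conjClasses,
    ← MulAction.index_stabilizer, Subgroup.index_mul_card]
  rfl

variable {L : Type} [Field L] [NumberField L] {G : Type} [Group G] [Finite G]
  [MulSemiringAction G L] [IsGaloisGroup G ℚ L]

/-- the Frobenius set of a conjugacy class is that of any of its elements -/
lemma dsxFrobSet_carrier (σ : G) :
    dsxFrobSet L G (ConjClasses.mk σ).carrier = dsxFrobSet L G {σ} := by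
  rw [dsxFrobSet_eq_iUnion]
  ext l
  simp only [Set.mem_iUnion, exists_prop]
  constructor
  · rintro ⟨g, hg, hl⟩
    rw [ConjClasses.mem_carrier_iff_mk_eq, ConjClasses.mk_eq_mk_iff_isConj, isConj_iff] at hg
    obtain ⟨τ, hτ⟩ := hg
    rw [← hτ, dsxFrobSet_singleton_conj]
    exact hl
  · intro hl
    exact ⟨σ, ConjClasses.mem_carrier_mk, hl⟩

/-- Frobenius sets of distinct classes are disjoint -/
lemma dsxFrobSet_carrier_disjoint {κ κ' : ConjClasses G} (h : κ ≠ κ') :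
    Disjoint (dsxFrobSet L G κ.carrier) (dsxFrobSet L G κ'.carrier) := by
  rw [Set.disjoint_left]
  rintro l ⟨hl, P, g, hg, hf⟩ ⟨-, P', g', hg', hf'⟩
  apply h
  have h1 : l ∈ dsxFrobSet L G {g} := ⟨hl, P, g, rfl, hf⟩
  have h2 : l ∈ dsxFrobSet L G {g'} := ⟨hl, P', g', rfl, hf'⟩
  have h3 := dsx_isConj_of_mem_frobSet h1 h2
  rw [ConjClasses.mem_carrier_iff_mk_eq] at hg hg'
  rw [← hg, ← hg', ConjClasses.mk_eq_mk_iff_isConj]
  exact h3

end Fermat.Agent.DS
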