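/-
DS-C (Chebotarev), crossing part, file 13: Chebotarev's density theorem for a totally complex Galois
number field `L` and a conjugation-stable subset of `Gal(L/ℚ)` (two-sided bounds), from the lower
bounds `dsx_lower_bound` for all classes and `∑_p p ^ (-s) = log (1 / (s - 1)) + O(1)`.
-/
import Fermat.Agent.Lib.DS.Cheb.Cross.TotallyComplex
set_option autoImplicit false
set_option linter.style.haveILetI false
set_option linter.unusedSectionVars false

open NumberField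
open scoped Pointwise

namespace Fermat.Agent.DS

open Fermat.Agent.FrobDensity Fermat.Agent.CFT.Global

variable {L : Type} [Field L] [NumberField L] [IsGalois ℚ L] [IsTotallyComplex L]

open Classical in
/-- two-sided bounds for every conjugacy class -/
theorem dsx_class_bounds (hD : DscDirichlet) (κ : ConjClasses (L ≃ₐ[ℚ] L)) (ε : ℝ) (hε : 0 < ε) :
    ∃ K : ℝ, ∀ s : ℝ, 1 < s → s ≤ 2 →
      |dscSum (dsxFrobSet L (L ≃ₐ[ℚ] L) κ.carrier) s -
        ((κ.carrier.ncard : ℝ) / Nat.card (L ≃ₐ[ℚ] L)) * Real.log (1 / (s - 1))| ≤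
        ε * Real.log (1 / (s - 1)) + K := by
  haveI : Fintype (L ≃ₐ[ℚ] L) := Fintype.ofFinite _
  haveI : Fintype (ConjClasses (L ≃ₐ[ℚ] L)) := Fintype.ofFinite _
  set G := (L ≃ₐ[ℚ] L) with hG
  have hGpos : (0 : ℝ) < Nat.card G := by exact_mod_cast Nat.card_pos
  set c : ConjClasses G → ℝ := fun κ => (κ.carrier.ncard : ℝ) / Nat.card G with hc
  set D : ConjClasses G → ℝ → ℝ := fun κ s => dscSum (dsxFrobSet L G κ.carrier) s with hDdef
  -- the weights sum to one
  have hc1 : ∑ κ ∈ (Finset.univ : Finset (ConjClasses G)), c κ = 1 := by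
    simp only [hc]
    rw [← Finset.sum_div, div_eq_one_iff_eq hGpos.ne']
    have h1 := sum_conjClasses_card_eq_card G
    rw [Nat.card_eq_fintype_card, ← h1]
    push_cast
    refine Finset.sum_congr rfl fun κ _ => ?_
    rw [Set.ncard_eq_toFinset_card']
  -- lower bounds
  have hlow : ∀ κ ∈ (Finset.univ : Finset (ConjClasses G)), ∀ ε : ℝ, 0 < ε → ∃ K : ℝ,
      ∀ s : ℝ, 1 < s → s ≤ 2 → (c κ - ε) * Real.log (1 / (s - 1)) - K ≤ D κ s := by
    intro κ _ ε hε
    obtain ⟨σ, rfl⟩ := ConjClasses.mk_surjective κ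
    · obtain ⟨K, hK⟩ := dsx_lower_bound hD σ ε hε
      refine ⟨K, fun s hs1 hs2 => ?_⟩
      have h1 := hK s hs1 hs2
      have h2 : c (ConjClasses.mk σ) =
          (Nat.card (Subgroup.centralizer ({σ} : Set G)) : ℝ)⁻¹ := by
        simp only [hc]
        have h3 := dsx_card_class_mul σ
        have h4 : (0 : ℝ) < Nat.card (Subgroup.centralizer ({σ} : Set G)) := by
          exact_mod_cast Nat.card_pos
        have h3' : ((ConjClasses.mk σ).carrier.ncard : ℝ) *
            (Nat.card (Subgroup.centralizer ({σ} : Set G)) : ℝ) = (Nat.card G : ℝ) := by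
          exact_mod_cast h3
        rw [div_eq_iff hGpos.ne', ← h3']
        field_simp
      simp only [hDdef]
      rw [h2, dsxFrobSet_carrier]
      exact h1
  -- the total
  obtain ⟨K₀, hK₀⟩ := dscSum_univ_bound
  have htot : ∃ K : ℝ, ∀ s : ℝ, 1 < s → s ≤ 2 →
      ∑ κ ∈ (Finset.univ : Finset (ConjClasses G)), D κ s ≤ Real.log (1 / (s - 1)) + K := by
    refine ⟨K₀, fun s hs1 hs2 => ?_⟩
    simp only [hDdef]
    rw [← dscSum_biUnion Finset.univ (fun κ : ConjClasses G => dsxFrobSet L G κ.carrier)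
      (fun κ _ κ' _ h => dsxFrobSet_carrier_disjoint h) hs1]
    have h1 := dscSum_mono (S := ⋃ κ ∈ (Finset.univ : Finset (ConjClasses G)),
      dsxFrobSet L G κ.carrier) (S' := Set.univ) (fun p _ _ => Set.mem_univ p) hs1
    have h2 := (abs_le.mp (hK₀ s hs1 hs2)).2
    linarith
  obtain ⟨K₁, hK₁⟩ := dsx_upper_of_lower Finset.univ c D hc1 htot hlow κ (Finset.mem_univ κ) ε hε
  obtain ⟨K₂, hK₂⟩ := hlow κ (Finset.mem_univ κ) ε hε
  refine ⟨max K₁ K₂, fun s hs1 hs2 => ?_⟩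
  have h1 := hK₁ s hs1 hs2
  have h2 := hK₂ s hs1 hs2
  rw [abs_le]
  constructor
  · have := le_max_right K₁ K₂
    simp only [hDdef, hc] at h2
    linarith
  · have := le_max_left K₁ K₂
    simp only [hDdef, hc] at h1
    linarith

open Classical in
/-- **Chebotarev's density theorem** (Dirichlet density form) for a totally complex Galois number
field and a conjugation-stable set `C ⊆ Gal(L/ℚ)` -/
theorem dsx_chebotarev_tc (hD : DscDirichlet) (C : Set (L ≃ₐ[ℚ] L))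
    (hC : ∀ g c : L ≃ₐ[ℚ] L, c ∈ C → g * c * g⁻¹ ∈ C) (ε : ℝ) (hε : 0 < ε) :
    ∃ K : ℝ, ∀ s : ℝ, 1 < s → s ≤ 2 →
      |dscSum (dsxFrobSet L (L ≃ₐ[ℚ] L) C) s -
        ((C.ncard : ℝ) / Nat.card (L ≃ₐ[ℚ] L)) * Real.log (1 / (s - 1))| ≤
        ε * Real.log (1 / (s - 1)) + K := by
  haveI : Fintype (L ≃ₐ[ℚ] L) := Fintype.ofFinite _
  haveI : Fintype (ConjClasses (L ≃ₐ[ℚ] L)) := Fintype.ofFinite _
  have hGpos : (0 : ℝ) < Nat.card (L ≃ₐ[ℚ] L) := by exact_mod_cast Nat.card_pos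
  set I : Finset (ConjClasses (L ≃ₐ[ℚ] L)) := Finset.univ.filter (fun κ => κ.carrier ⊆ C) with hI
  -- a class meeting `C` is contained in `C`
  have hstab : ∀ g ∈ C, (ConjClasses.mk g).carrier ⊆ C := by
    intro g hg x hx
    rw [ConjClasses.mem_carrier_iff_mk_eq, ConjClasses.mk_eq_mk_iff_isConj, isConj_iff] at hx
    obtain ⟨τ, hτ⟩ := hx
    have h1 : x = τ⁻¹ * g * τ⁻¹⁻¹ := by rw [← hτ]; group
    rw [h1]
    exact hC _ _ hg
  have hCeq : C = ⋃ κ ∈ I, κ.carrier := by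
    ext g
    simp only [Set.mem_iUnion, exists_prop]
    constructor
    · intro hg
      exact ⟨ConjClasses.mk g, Finset.mem_filter.mpr ⟨Finset.mem_univ _, hstab g hg⟩,
        ConjClasses.mem_carrier_mk⟩
    · rintro ⟨κ, hκ, hg⟩
      exact (Finset.mem_filter.mp hκ).2 hg
  have hFeq : dsxFrobSet L (L ≃ₐ[ℚ] L) C = ⋃ κ ∈ I, dsxFrobSet L (L ≃ₐ[ℚ] L) κ.carrier := by
    ext l
    simp only [Set.mem_iUnion, exists_prop]
    constructor
    · rintro ⟨hl, P, g, hg, hf⟩
      exact ⟨ConjClasses.mk g, Finset.mem_filter.mpr ⟨Finset.mem_univ _, hstab g hg⟩,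
        hl, P, g, ConjClasses.mem_carrier_mk, hf⟩
    · rintro ⟨κ, hκ, hl, P, g, hg, hf⟩
      exact ⟨hl, P, g, (Finset.mem_filter.mp hκ).2 hg, hf⟩
  have hcard : (C.ncard : ℝ) = ∑ κ ∈ I, (κ.carrier.ncard : ℝ) := by
    have h1 : C.ncard = ∑ κ ∈ I, κ.carrier.ncard := by
      rw [Set.ncard_eq_toFinset_card']
      rw [Finset.card_eq_sum_card_fiberwise (f := ConjClasses.mk) (s := C.toFinset) (t := I)
        (fun g hg => Finset.mem_filter.mpr ⟨Finset.mem_univ _, hstab g (Set.mem_toFinset.mp hg)⟩)]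
      refine Finset.sum_congr rfl fun κ hκ => ?_
      rw [Set.ncard_eq_toFinset_card']
      congr 1
      ext g
      simp only [Finset.mem_filter, Set.mem_toFinset, ConjClasses.mem_carrier_iff_mk_eq]
      constructor
      · rintro ⟨-, h⟩; exact h
      · intro h
        refine ⟨(Finset.mem_filter.mp hκ).2 ?_, h⟩
        rw [ConjClasses.mem_carrier_iff_mk_eq]; exact h
    exact_mod_cast h1
  set N : ℝ := (Fintype.card (ConjClasses (L ≃ₐ[ℚ] L)) : ℝ) with hN
  have hNpos : 0 < N := by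
    rw [hN]; exact_mod_cast Fintype.card_pos
  have hA : ∀ κ : ConjClasses (L ≃ₐ[ℚ] L), ∃ K : ℝ, ∀ s : ℝ, 1 < s → s ≤ 2 →
      |dscSum (dsxFrobSet L (L ≃ₐ[ℚ] L) κ.carrier) s -
        ((κ.carrier.ncard : ℝ) / Nat.card (L ≃ₐ[ℚ] L)) * Real.log (1 / (s - 1))| ≤
        (ε / N) * Real.log (1 / (s - 1)) + K :=
    fun κ => dsx_class_bounds hD κ (ε / N) (div_pos hε hNpos)
  choose Kf hKf using hA
  refine ⟨∑ κ ∈ I, Kf κ, fun s hs1 hs2 => ?_⟩
  have hlog := dsx_log_nonneg hs1 hs2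
  rw [hFeq, dscSum_biUnion I (fun κ : ConjClasses (L ≃ₐ[ℚ] L) => dsxFrobSet L (L ≃ₐ[ℚ] L) κ.carrier)
    (fun κ _ κ' _ h => dsxFrobSet_carrier_disjoint h) hs1, hcard, Finset.sum_div, Finset.sum_mul,
    ← Finset.sum_sub_distrib]
  refine (Finset.abs_sum_le_sum_abs _ _).trans ?_
  refine (Finset.sum_le_sum fun κ _ => hKf κ s hs1 hs2).trans ?_
  rw [Finset.sum_add_distrib, Finset.sum_const, nsmul_eq_mul]
  have h1 : (I.card : ℝ) ≤ N := by
    rw [hN]; exact_mod_cast Finset.card_le_univ I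
  have h2 : (I.card : ℝ) * (ε / N * Real.log (1 / (s - 1))) ≤ ε * Real.log (1 / (s - 1)) := by
    have h3 : (I.card : ℝ) * (ε / N) ≤ ε := by
      calc (I.card : ℝ) * (ε / N) ≤ N * (ε / N) :=
            mul_le_mul_of_nonneg_right h1 (div_pos hε hNpos).le
        _ = ε := by field_simp
    calc (I.card : ℝ) * (ε / N * Real.log (1 / (s - 1)))
        = ((I.card : ℝ) * (ε / N)) * Real.log (1 / (s - 1)) := by ring
      _ ≤ ε * Real.log (1 / (s - 1)) := mul_le_mul_of_nonneg_right h3 hlog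
  linarith

end Fermat.Agent.DS
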