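/-
DS-C (Chebotarev), crossing part, file 14 (C7): finite levels inside `ℚ̄`.

* `dsx_exists_tc_level` : every finite level is contained in a finite normal level containing
  `√-1` (hence totally complex, `dsx_isTotallyComplex_of_sq`);
* `dsx_exists_frobenius_of_isFrob` / `dsx_isFrob_of_frobenius` : dictionary between the Frobenius
  elements of `Gal(F/ℚ)` at unramified primes (`DsxIsFrob`) and the Frobenius elements of `G_ℚ`
  (Prelude `ValuationSubring.IsFrobeniusAt`);
* `dsxDesc` : a homomorphism of `G_ℚ` of level `F` descends to `Gal(F/ℚ)`.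
-/
import Fermat.Agent.Lib.DS.Cheb.Cross.Chebotarev
import Fermat.Agent.Lib.FrobDensity.Main
import Fermat.Agent.Lib.DS.Final.Glue
set_option autoImplicit false
set_option linter.style.haveILetI false
set_option linter.unusedSectionVars false

open NumberField IntermediateField
open scoped Pointwise

namespace Fermat.Agent.DS

open Fermat.Agent.CFT Fermat.Agent.CFT.Bridge Fermat.Agent.FrobDensity Fermat.Agent.CFT.Global

/-- a number field containing a square root of `-1` is totally complex -/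
theorem dsx_isTotallyComplex_of_sq (K : Type*) [Field K] [NumberField K] (x : K)
    (hx : x ^ 2 = -1) : IsTotallyComplex K := by
  refine ⟨fun w => ?_⟩
  by_contra hw
  rw [InfinitePlace.not_isComplex_iff_isReal] at hw
  have h1 : (InfinitePlace.embedding_of_isReal hw x) ^ 2 = -1 := by
    rw [← map_pow, hx, map_neg, map_one]
  nlinarith [sq_nonneg (InfinitePlace.embedding_of_isReal hw x)]

/-- every finite level is contained in a finite normal level containing a square root of `-1` -/
theorem dsx_exists_tc_level (F : IntermediateField ℚ Qbar) (hF : FiniteDimensional ℚ F) :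
    ∃ F' : IntermediateField ℚ Qbar, FiniteDimensional ℚ F' ∧ Normal ℚ F' ∧ F ≤ F' ∧
      ∃ x ∈ F', x ^ 2 = -1 := by
  obtain ⟨i, hi⟩ := IsAlgClosed.exists_pow_nat_eq (-1 : Qbar) (n := 2) (by norm_num)
  have hint : IsIntegral ℚ i := Algebra.IsIntegral.isIntegral i
  have h2 : FiniteDimensional ℚ ℚ⟮i⟯ := IntermediateField.adjoin.finiteDimensional hint
  obtain ⟨L, h1, h2, h3, h4⟩ := dsf_exists_normal_level F ℚ⟮i⟯ hF h2
  exact ⟨L, h1, h2, h3, i, h4 (IntermediateField.mem_adjoin_simple_self ℚ i), hi⟩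

section Level

variable (F : IntermediateField ℚ Qbar) [NumberField ↥F] [IsGalois ℚ ↥F]
  (hN : @Normal ℚ ↥F _ _ F.algebra')

/-- **lifting**: a Frobenius element of an unramified prime of the finite level `F` is the
restriction of a Frobenius element of `G_ℚ` -/
theorem dsx_exists_frobenius_of_isFrob {p : ℕ} (hp : p.Prime) {P : Ideal (𝓞 ↥F)}
    {g : ↥F ≃ₐ[ℚ] ↥F} (h : DsxIsFrob p P g) :
    ∃ (A : ValuationSubring Qbar) (φ : GQ), A.LiesOverPrime p ∧ A.IsFrobeniusAt φ p ∧
      restrictRat F hN φ = g := by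
  obtain ⟨hPp, hpP, hin, hfr⟩ := h
  haveI := hPp
  have hP0 : P ≠ ⊥ := by
    rintro rfl
    rw [Ideal.mem_bot] at hpP
    exact hp.ne_zero (by exact_mod_cast hpP)
  obtain ⟨A, hA⟩ := exists_primeUnder_eq F P hP0
  have hAp : A.LiesOverPrime p := liesOverPrime_of_natCast_mem_primeUnder F (hA ▸ hpP)
  obtain ⟨φ, hφ⟩ := Fermat.Agent.Lib.Helper6.exists_isFrobeniusAt A hp hAp
  refine ⟨A, φ, hAp, hφ, ?_⟩
  have h1 := isArithFrobAt_restrictRat F hN hp hAp hφ
  rw [hA] at h1
  have h2 := IsArithFrobAt.mul_inv_mem_inertia h1 hfr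
  rw [hin, Subgroup.mem_bot] at h2
  exact mul_inv_eq_one.mp h2

/-- **descending**: the restriction of a Frobenius element of `G_ℚ` at an unramified prime -/
theorem dsx_isFrob_of_frobenius {p : ℕ} (hp : p.Prime) {A : ValuationSubring Qbar} {φ : GQ}
    (hA : A.LiesOverPrime p) (hφ : A.IsFrobeniusAt φ p)
    (hin : Ideal.inertia (↥F ≃ₐ[ℚ] ↥F) (primeUnder F A) = ⊥) :
    DsxIsFrob p (primeUnder F A) (restrictRat F hN φ) :=
  ⟨inferInstance, natCast_mem_primeUnder F hA, hin, isArithFrobAt_restrictRat F hN hp hA hφ⟩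

variable {Q : Type*} [Group Q] (ρ : GQ →* Q) (hρ : DsfLevel ρ F)

include hρ in
lemma dsx_apply_eq_of_restrictRat_eq {σ τ : GQ} (h : restrictRat F hN σ = restrictRat F hN τ) :
    ρ σ = ρ τ := by
  refine hρ.apply_eq σ τ fun x hx => ?_
  have h2 := congrArg (fun f : ↥F ≃ₐ[ℚ] ↥F => ((f ⟨x, hx⟩ : ↥F) : Qbar)) h
  simpa only [restrictRat_coe] using h2

/-- a homomorphism of `G_ℚ` of level `F` descends to `Gal(F/ℚ)` -/
noncomputable def dsxDesc : (↥F ≃ₐ[ℚ] ↥F) →* Q where
  toFun g := ρ (Function.surjInv (restrictRat_surjective F hN) g)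
  map_one' := by
    rw [← map_one ρ]
    refine dsx_apply_eq_of_restrictRat_eq F hN ρ hρ ?_
    rw [Function.surjInv_eq (restrictRat_surjective F hN), restrictRat_one]
  map_mul' g h := by
    rw [← map_mul ρ]
    refine dsx_apply_eq_of_restrictRat_eq F hN ρ hρ ?_
    rw [restrictRat_mul, Function.surjInv_eq (restrictRat_surjective F hN),
      Function.surjInv_eq (restrictRat_surjective F hN),
      Function.surjInv_eq (restrictRat_surjective F hN)]

lemma dsxDesc_restrictRat (σ : GQ) : dsxDesc F hN ρ hρ (restrictRat F hN σ) = ρ σ := by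
  refine dsx_apply_eq_of_restrictRat_eq F hN ρ hρ ?_
  rw [Function.surjInv_eq (restrictRat_surjective F hN)]

lemma dsxDesc_range : (dsxDesc F hN ρ hρ).range = ρ.range := by
  ext q
  constructor
  · rintro ⟨g, rfl⟩
    obtain ⟨σ, rfl⟩ := restrictRat_surjective F hN g
    exact ⟨σ, (dsxDesc_restrictRat F hN ρ hρ σ).symm⟩
  · rintro ⟨σ, rfl⟩
    exact ⟨restrictRat F hN σ, dsxDesc_restrictRat F hN ρ hρ σ⟩

end Level

end Fermat.Agent.DS
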