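/-
DS-C (Chebotarev), crossing part, file 15 (C7-ii): **Chebotarev, cover form**.

* `dsx_cover_tc` : for a totally complex Galois number field `L`, the Frobenius elements of the
  unramified primes outside a finite set `T` and outside a set `X` of upper Dirichlet density
  `≤ η` cover at least `(1 - η) |Gal(L/ℚ)|` elements;
* `dsx_chebCover : DscDirichlet → DsfChebCover` : the same in the vocabulary of the Prelude, for a
  homomorphism `ρ : G_ℚ → Q` of finite level (the shape used by the final assembly DS-F).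
-/
import Fermat.Agent.Lib.DS.Cheb.Cross.Level
import Fermat.Agent.Lib.DS.Final.Defs
set_option autoImplicit false
set_option linter.style.haveILetI false
set_option linter.unusedSectionVars false

open NumberField IntermediateField
open scoped Pointwise

namespace Fermat.Agent.DS

open Fermat.Agent.CFT Fermat.Agent.CFT.Bridge Fermat.Agent.FrobDensity Fermat.Agent.CFT.Global

/-- a subset of a finite group has at most `|f(V)| |ker f|` elements -/
lemma dsx_ncard_le_image_mul_ker {G Q : Type*} [Group G] [Finite G] [Group Q] (f : G →* Q)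
    (V : Set G) : V.ncard ≤ (f '' V).ncard * Nat.card f.ker := by
  classical
  haveI : Fintype G := Fintype.ofFinite G
  have h1 : V.ncard = V.toFinset.card := Set.ncard_eq_toFinset_card' V
  have h2 : (f '' V).ncard = (V.toFinset.image f).card := by
    rw [← Set.ncard_coe_finset]
    congr 1
    ext q
    simp
  rw [h1, h2, mul_comm]
  refine Finset.card_le_mul_card_image _ _ fun b hb => ?_
  obtain ⟨a₀, -, rfl⟩ := Finset.mem_image.mp hb
  have h3 : Nat.card f.ker = (Finset.univ.filter fun a : G => a ∈ f.ker).card := by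
    rw [Nat.card_eq_fintype_card, Fintype.card_subtype]
  rw [h3]
  refine Finset.card_le_card_of_injOn (fun a => a₀⁻¹ * a) ?_ ?_
  · intro a ha
    have ha' := (Finset.mem_filter.mp (Finset.mem_coe.mp ha)).2
    simp only [Finset.coe_filter, Finset.mem_univ, true_and, Set.mem_ofPred_eq, MonoidHom.mem_ker,
      map_mul, map_inv, ha', inv_mul_cancel]
  · intro a _ a' _ h
    exact mul_left_cancel h

/-- a real number `c` with `c log (1/(s-1))` bounded above near `1` is `≤ 0` -/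
lemma dsx_nonpos_of_mul_log_le {c B : ℝ}
    (h : ∀ s : ℝ, 1 < s → s < 2 → c * Real.log (1 / (s - 1)) ≤ B) : c ≤ 0 := by
  by_contra hc
  push Not at hc
  set M : ℝ := max 1 (B / c + 1) with hM
  have hM1 : 1 ≤ M := le_max_left _ _
  have hM2 : B / c + 1 ≤ M := le_max_right _ _
  have hs1 : (1 : ℝ) < 1 + Real.exp (-M) := by linarith [Real.exp_pos (-M)]
  have hs2 : 1 + Real.exp (-M) < 2 := by
    have : Real.exp (-M) < 1 := by
      rw [Real.exp_lt_one_iff]; linarith
    linarith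
  have h1 := h _ hs1 hs2
  have h2 : Real.log (1 / (1 + Real.exp (-M) - 1)) = M := by
    rw [add_sub_cancel_left, one_div, ← Real.exp_neg, neg_neg, Real.log_exp]
  rw [h2] at h1
  have h3 : B / c * c = B := div_mul_cancel₀ B hc.ne'
  nlinarith

section TC

variable {L : Type} [Field L] [NumberField L] [IsGalois ℚ L] [IsTotallyComplex L]

/-- **Chebotarev, cover form**, for a totally complex Galois number field: the Frobenius elements
of the unramified primes outside a finite set `T` and a set `X` of upper density `≤ η` cover at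
least `(1 - η) |G|` elements of `G`. -/
theorem dsx_cover_tc (hD : DscDirichlet) (T : Finset ℕ) (X : Set ℕ) (η : ℝ)
    (hX : ∃ K : ℝ, ∀ s : ℝ, 1 < s → s < 2 → dscSum X s ≤ η * Real.log (1 / (s - 1)) + K) :
    (1 - η) * (Nat.card (L ≃ₐ[ℚ] L) : ℝ) ≤
      ({g : L ≃ₐ[ℚ] L | ∃ p : ℕ, p.Prime ∧ p ∉ T ∧ p ∉ X ∧
        ∃ P : Ideal (𝓞 L), DsxIsFrob p P g}.ncard : ℝ) := by
  classical
  set V : Set (L ≃ₐ[ℚ] L) := {g : L ≃ₐ[ℚ] L | ∃ p : ℕ, p.Prime ∧ p ∉ T ∧ p ∉ X ∧
        ∃ P : Ideal (𝓞 L), DsxIsFrob p P g} with hV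
  have hGpos : (0 : ℝ) < Nat.card (L ≃ₐ[ℚ] L) := by exact_mod_cast Nat.card_pos
  have hVconj : ∀ g c : L ≃ₐ[ℚ] L, c ∈ V → g * c * g⁻¹ ∈ V := by
    rintro g c ⟨p, hp, hpT, hpX, P, hf⟩
    exact ⟨p, hp, hpT, hpX, g • P, hf.conj g⟩
  have hCconj : ∀ g c : L ≃ₐ[ℚ] L, c ∈ Vᶜ → g * c * g⁻¹ ∈ Vᶜ := by
    intro g c hc hmem
    apply hc
    have := hVconj g⁻¹ _ hmem
    convert this using 1
    group
  obtain ⟨K, hK⟩ := hX
  -- the Frobenius set of the complement is contained in `T ∪ X`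
  have hsub : ∀ p : ℕ, p.Prime → p ∉ T → p ∈ dsxFrobSet L (L ≃ₐ[ℚ] L) Vᶜ → p ∈ X := by
    rintro p hp hpT ⟨-, P, g, hg, hf⟩
    by_contra hpX
    exact hg ⟨p, hp, hpT, hpX, P, hf⟩
  have hkey : ∀ ε : ℝ, 0 < ε → ((Vᶜ).ncard : ℝ) / Nat.card (L ≃ₐ[ℚ] L) - ε - η ≤ 0 := by
    intro ε hε
    obtain ⟨K₁, hK₁⟩ := dsx_chebotarev_tc hD Vᶜ hCconj ε hε
    refine dsx_nonpos_of_mul_log_le (B := K₁ + T.card + K) fun s hs1 hs2 => ?_
    have h1 := (abs_le.mp (hK₁ s hs1 hs2.le)).1
    have h2 := dscSum_sub_le_of_finset (S := dsxFrobSet L (L ≃ₐ[ℚ] L) Vᶜ) (S' := X) T hsub hs1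
    have h3 := hK s hs1 hs2
    linarith
  have hle : ((Vᶜ).ncard : ℝ) / Nat.card (L ≃ₐ[ℚ] L) ≤ η := by
    by_contra hlt
    push Not at hlt
    have := hkey ((((Vᶜ).ncard : ℝ) / Nat.card (L ≃ₐ[ℚ] L) - η) / 2) (by linarith)
    linarith
  have hadd : (V.ncard : ℝ) + ((Vᶜ).ncard : ℝ) = Nat.card (L ≃ₐ[ℚ] L) := by
    have := Set.ncard_add_ncard_compl V
    exact_mod_cast this
  rw [div_le_iff₀ hGpos] at hle
  linarith

end TC

/-- the instances of a finite normal level containing `√-1` -/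
theorem dsx_level_instances (F : IntermediateField ℚ Qbar) (h1 : FiniteDimensional ℚ F)
    (h2 : Normal ℚ F) (x : Qbar) (hx : x ∈ F) (hx2 : x ^ 2 = -1) :
    ∃ (_ : NumberField ↥F) (_ : IsGalois ℚ ↥F) (_ : IsTotallyComplex ↥F),
      @Normal ℚ ↥F _ _ F.algebra' := by
  haveI := h1
  haveI := h2
  have hN : @Normal ℚ ↥F _ _ F.algebra' := by
    rw [algebra'_eq_toRatAlgebra]; infer_instance
  haveI : NumberField ↥F := NumberField.of_module_finite ℚ ↥F
  haveI : IsGalois ℚ ↥F := ⟨⟩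
  refine ⟨inferInstance, inferInstance, ?_, hN⟩
  refine dsx_isTotallyComplex_of_sq ↥F ⟨x, hx⟩ ?_
  apply Subtype.ext
  push_cast
  exact hx2

/-- **Chebotarev, cover form** (DS-C (C7-ii)), from Dirichlet's theorem for norm classes -/
theorem dsx_chebCover (hD : DscDirichlet) : DsfChebCover := by
  intro Q _ ρ hρ T X η hX
  obtain ⟨F₀, hF₀, hρ₀⟩ := hρ
  obtain ⟨F, h1, h2, hle, x, hx, hx2⟩ := dsx_exists_tc_level F₀ hF₀
  obtain ⟨i1, i2, i3, hN⟩ := dsx_level_instances F h1 h2 x hx hx2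
  have hlev : DsfLevel ρ F := fun σ hσ => hρ₀ σ fun y hy => hσ y (hle hy)
  -- the density hypothesis in the `dscSum` form
  have hX' : ∃ K : ℝ, ∀ s : ℝ, 1 < s → s < 2 →
      dscSum X s ≤ η * Real.log (1 / (s - 1)) + K := by
    obtain ⟨K, hK⟩ := hX
    exact ⟨K, fun s hs1 hs2 => dscSum_le_of_finset fun P hP => hK s hs1 hs2 P hP⟩
  have hcov := dsx_cover_tc (L := ↥F) hD T X η hX'
  set V : Set (↥F ≃ₐ[ℚ] ↥F) := {g | ∃ p : ℕ, p.Prime ∧ p ∉ T ∧ p ∉ X ∧
        ∃ P : Ideal (𝓞 ↥F), DsxIsFrob p P g} with hV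
  set f := dsxDesc F hN ρ hlev with hf
  -- the image of `V` consists of Frobenius values
  have himg : f '' V ⊆ dsfFrobValues ρ T X := by
    rintro q ⟨g, ⟨p, hp, hpT, hpX, P, hfr⟩, rfl⟩
    obtain ⟨A, φ, hA, hφ, hres⟩ := dsx_exists_frobenius_of_isFrob F hN hp hfr
    refine ⟨p, hp, hpT, hpX, A, φ, hA, hφ, ?_⟩
    rw [← hres, hf, dsxDesc_restrictRat]
  have hfin : (dsfFrobValues ρ T X).Finite := by
    refine Set.Finite.subset (Set.finite_range f) ?_
    rintro q ⟨p, -, -, -, A, φ, -, -, rfl⟩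
    exact ⟨restrictRat F hN φ, dsxDesc_restrictRat F hN ρ hlev φ⟩
  have h3 : V.ncard ≤ (dsfFrobValues ρ T X).ncard * Nat.card f.ker :=
    (dsx_ncard_le_image_mul_ker f V).trans
      (Nat.mul_le_mul_right _ (Set.ncard_le_ncard himg hfin))
  have h4 : Nat.card ρ.range * Nat.card f.ker = Nat.card (↥F ≃ₐ[ℚ] ↥F) := by
    rw [← dsxDesc_range F hN ρ hlev, ← Subgroup.index_ker, Subgroup.index_mul_card]
  have hker : (0 : ℝ) < Nat.card f.ker := by exact_mod_cast Nat.card_pos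
  have h3' : (V.ncard : ℝ) ≤ ((dsfFrobValues ρ T X).ncard : ℝ) * Nat.card f.ker := by
    exact_mod_cast h3
  have h4' : (Nat.card ρ.range : ℝ) * Nat.card f.ker = Nat.card (↥F ≃ₐ[ℚ] ↥F) := by
    exact_mod_cast h4
  rw [← h4', ← mul_assoc] at hcov
  exact le_of_mul_le_mul_right (hcov.trans h3') hker

end Fermat.Agent.DS
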