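/-
DS-C (Chebotarev), crossing part, file 16 (C7-iii): **Chebotarev for class functions and for two
characters**.

* `dscSum_exists_finset` : finite partial sums approximate `dscSum` from below;
* `dsx_classfun_lower` : for a totally complex Galois number field `L` and a class function
  `f ≥ 0` on `Gal(L/ℚ)`, `∑_p f(Frob_p) p^{-s} ≥ (mean f - ε) log (1/(s-1)) - K`;
* `dsx_two_mul_card_le_sum` : the mean of `|χ₁ + χ₂|²` is at least `2`;
* `dsx_chebChars : DscDirichlet → DsfChebChars` : the form used in (DS-8) of the final assembly.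
-/
import Fermat.Agent.Lib.DS.Cheb.Cross.Cover
set_option autoImplicit false
set_option linter.style.haveILetI false
set_option linter.unusedSectionVars false

open NumberField IntermediateField
open scoped Pointwise

namespace Fermat.Agent.DS

open Fermat.Agent.CFT Fermat.Agent.CFT.Bridge Fermat.Agent.FrobDensity Fermat.Agent.CFT.Global

/-- finite partial sums approximate `dscSum` from below -/
lemma dscSum_exists_finset (S : Set ℕ) {s : ℝ} (hs : 1 < s) {δ : ℝ} (hδ : 0 < δ) :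
    ∃ P : Finset ℕ, (∀ p ∈ P, p.Prime ∧ p ∈ S) ∧ dscSum S s - δ ≤ ∑ p ∈ P, (p : ℝ) ^ (-s) := by
  classical
  have hsum := (dscSum_summable S hs).hasSum
  have hlt : dscSum S s - δ < dscSum S s := by linarith
  obtain ⟨U, hU⟩ := (Filter.Tendsto.eventually_const_lt hlt hsum).exists
  refine ⟨(U.filter fun p : Nat.Primes => (p : ℕ) ∈ S).map
      ⟨fun p : Nat.Primes => (p : ℕ), Nat.Primes.coe_nat_injective⟩, ?_, ?_⟩
  · intro p hp
    rw [Finset.mem_map] at hp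
    obtain ⟨q, hq, rfl⟩ := hp
    exact ⟨q.2, (Finset.mem_filter.mp hq).2⟩
  · rw [Finset.sum_map, Finset.sum_filter]
    refine hU.le.trans (le_of_eq ?_)
    refine Finset.sum_congr rfl fun p _ => ?_
    simp only [Function.Embedding.coeFn_mk]
    by_cases hp : (p : ℕ) ∈ S
    · rw [Set.indicator_of_mem hp, if_pos hp]
    · rw [Set.indicator_of_notMem hp, if_neg hp]

section TC

variable {L : Type} [Field L] [NumberField L] [IsGalois ℚ L] [IsTotallyComplex L]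

/-- **Chebotarev for class functions, lower bound**: if `b p = f (Frob_p)` for the unramified
primes `p ∉ T`, `f ≥ 0` a class function, then `∑_p b p p^{-s} ≥ (mean f - ε) log (1/(s-1)) - K`
(finite partial sums over primes outside `T`). -/
theorem dsx_classfun_lower (hD : DscDirichlet) (f : (L ≃ₐ[ℚ] L) → ℝ) (hf0 : ∀ g, 0 ≤ f g)
    (hfc : ∀ g h : L ≃ₐ[ℚ] L, f (g * h * g⁻¹) = f h) (T : Finset ℕ) (b : ℕ → ℝ)
    (hb : ∀ p : ℕ, p.Prime → p ∉ T → ∀ (P : Ideal (𝓞 L)) (g : L ≃ₐ[ℚ] L),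
      DsxIsFrob p P g → b p = f g) (ε : ℝ) (hε : 0 < ε) :
    ∃ K : ℝ, ∀ s : ℝ, 1 < s → s < 2 → ∃ P : Finset ℕ, (∀ p ∈ P, p.Prime ∧ p ∉ T) ∧
      ((∑ᶠ g, f g) / Nat.card (L ≃ₐ[ℚ] L) - ε) * Real.log (1 / (s - 1)) - K ≤
        ∑ p ∈ P, b p * (p : ℝ) ^ (-s) := by
  classical
  haveI : Fintype (L ≃ₐ[ℚ] L) := Fintype.ofFinite _
  have hGpos : (0 : ℝ) < Nat.card (L ≃ₐ[ℚ] L) := by exact_mod_cast Nat.card_pos
  set vals : Finset ℝ := Finset.univ.image f with hvals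
  have hv0 : ∀ v ∈ vals, 0 ≤ v := by
    intro v hv
    obtain ⟨g, -, rfl⟩ := Finset.mem_image.mp hv
    exact hf0 g
  set C : ℝ → Set (L ≃ₐ[ℚ] L) := fun v => {g | f g = v} with hC
  have hCconj : ∀ v : ℝ, ∀ g c : L ≃ₐ[ℚ] L, c ∈ C v → g * c * g⁻¹ ∈ C v := by
    intro v g c hc
    change f (g * c * g⁻¹) = v
    rw [hfc]; exact hc
  -- the mean of `f` through the level sets
  have hmean : ∑ᶠ g, f g = ∑ v ∈ vals, v * ((C v).ncard : ℝ) := by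
    rw [finsum_eq_sum_of_fintype,
      ← Finset.sum_fiberwise_of_maps_to (s := Finset.univ) (t := vals) (g := f)
        (fun g _ => Finset.mem_image_of_mem f (Finset.mem_univ g))]
    refine Finset.sum_congr rfl fun v _ => ?_
    rw [Finset.sum_congr rfl (fun g hg => (Finset.mem_filter.mp hg).2), Finset.sum_const,
      nsmul_eq_mul, mul_comm]
    congr 2
    rw [Set.ncard_eq_toFinset_card']
    congr 1
    ext g
    simp [hC]
  set S0 : ℝ := ∑ v ∈ vals, v with hS0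
  have hS0nn : 0 ≤ S0 := Finset.sum_nonneg hv0
  set ε' : ℝ := ε / (S0 + 1) with hε'
  have hε'pos : 0 < ε' := div_pos hε (by linarith)
  have hε'S0 : ε' * S0 ≤ ε := by
    rw [hε', div_mul_eq_mul_div, div_le_iff₀ (by linarith)]
    nlinarith
  have hcheb : ∀ v : ℝ, ∃ K : ℝ, ∀ s : ℝ, 1 < s → s ≤ 2 →
      |dscSum (dsxFrobSet L (L ≃ₐ[ℚ] L) (C v)) s -
        (((C v).ncard : ℝ) / Nat.card (L ≃ₐ[ℚ] L)) * Real.log (1 / (s - 1))| ≤
        ε' * Real.log (1 / (s - 1)) + K :=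
    fun v => dsx_chebotarev_tc hD (C v) (hCconj v) ε' hε'pos
  choose Kv hKv using hcheb
  refine ⟨∑ v ∈ vals, v * (Kv v + T.card + 1), fun s hs1 hs2 => ?_⟩
  have hlog : 0 ≤ Real.log (1 / (s - 1)) := dsx_log_nonneg hs1 hs2.le
  have hap : ∀ v : ℝ, ∃ P : Finset ℕ,
      (∀ p ∈ P, p.Prime ∧ p ∈ dsxFrobSet L (L ≃ₐ[ℚ] L) (C v) \ (T : Set ℕ)) ∧
      dscSum (dsxFrobSet L (L ≃ₐ[ℚ] L) (C v) \ (T : Set ℕ)) s - 1 ≤ ∑ p ∈ P, (p : ℝ) ^ (-s) :=
    fun v => dscSum_exists_finset _ hs1 one_pos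
  choose Pv hPv1 hPv2 using hap
  -- the value of `b` on `Pv v`
  have hbv : ∀ v : ℝ, ∀ p ∈ Pv v, b p = v := by
    intro v p hp
    obtain ⟨hpp, ⟨-, 𝔓, g, hg, hfr⟩, hpT⟩ := hPv1 v p hp
    rw [hb p hpp (fun h => hpT (Finset.mem_coe.mpr h)) 𝔓 g hfr]
    exact hg
  have hdisj : ∀ v ∈ vals, ∀ v' ∈ vals, v ≠ v' → Disjoint (Pv v) (Pv v') := by
    intro v _ v' _ hvv'
    rw [Finset.disjoint_left]
    intro p hp hp'
    exact hvv' ((hbv v p hp).symm.trans (hbv v' p hp'))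
  refine ⟨vals.biUnion Pv, ?_, ?_⟩
  · intro p hp
    obtain ⟨v, -, hpv⟩ := Finset.mem_biUnion.mp hp
    obtain ⟨hpp, -, hpT⟩ := hPv1 v p hpv
    exact ⟨hpp, fun h => hpT (Finset.mem_coe.mpr h)⟩
  · rw [Finset.sum_biUnion (fun v hv v' hv' h => hdisj v hv v' hv' h)]
    have h1 : ∀ v ∈ vals, v * ((((C v).ncard : ℝ) / Nat.card (L ≃ₐ[ℚ] L) - ε') *
        Real.log (1 / (s - 1)) - (Kv v + T.card + 1)) ≤ ∑ p ∈ Pv v, b p * (p : ℝ) ^ (-s) := by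
      intro v hv
      rw [Finset.sum_congr rfl (fun p hp => by rw [hbv v p hp]), ← Finset.mul_sum]
      refine mul_le_mul_of_nonneg_left ?_ (hv0 v hv)
      have h2 := (abs_le.mp (hKv v s hs1 hs2.le)).1
      have h3 := dscSum_sub_le_of_finset (S := dsxFrobSet L (L ≃ₐ[ℚ] L) (C v))
        (S' := dsxFrobSet L (L ≃ₐ[ℚ] L) (C v) \ (T : Set ℕ)) T
        (fun p _ hpT hpS => ⟨hpS, fun h => hpT (Finset.mem_coe.mp h)⟩) hs1
      have h4 := hPv2 v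
      linarith
    refine le_trans ?_ (Finset.sum_le_sum h1)
    have h5 : ∑ v ∈ vals, v * ((((C v).ncard : ℝ) / Nat.card (L ≃ₐ[ℚ] L) - ε') *
        Real.log (1 / (s - 1)) - (Kv v + T.card + 1)) =
        ((∑ᶠ g, f g) / Nat.card (L ≃ₐ[ℚ] L) - ε' * S0) * Real.log (1 / (s - 1)) -
          ∑ v ∈ vals, v * (Kv v + T.card + 1) := by
      rw [hmean, hS0, Finset.sum_div, Finset.mul_sum, ← Finset.sum_sub_distrib, Finset.sum_mul,
        ← Finset.sum_sub_distrib]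
      refine Finset.sum_congr rfl fun v _ => ?_
      ring
    rw [h5]
    have h6 : ε' * S0 * Real.log (1 / (s - 1)) ≤ ε * Real.log (1 / (s - 1)) :=
      mul_le_mul_of_nonneg_right hε'S0 hlog
    nlinarith

end TC

open ComplexConjugate in
/-- the mean of `|χ₁ + χ₂|²` over a finite group is at least `2` -/
lemma dsx_two_mul_card_le_sum {G : Type*} [Group G] [Finite G] (χ₁ χ₂ : G →* ℂˣ) :
    2 * (Nat.card G : ℝ) ≤ ∑ᶠ g, ‖((χ₁ g : ℂˣ) : ℂ) + ((χ₂ g : ℂˣ) : ℂ)‖ ^ 2 := by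
  classical
  haveI : Fintype G := Fintype.ofFinite G
  rw [finsum_eq_sum_of_fintype]
  have hn : ∀ (χ : G →* ℂˣ) (g : G), ‖((χ g : ℂˣ) : ℂ)‖ = 1 := by
    intro χ g
    have h1 : ((χ g : ℂˣ) : ℂ) ^ (Fintype.card G) = 1 := by
      rw [← Units.val_pow_eq_pow_val, ← map_pow, pow_card_eq_one, map_one, Units.val_one]
    exact Complex.norm_eq_one_of_pow_eq_one h1 Fintype.card_ne_zero
  set ψ : G →* ℂ := (Units.coeHom ℂ).comp (χ₁ / χ₂) with hψ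
  have hterm : ∀ g : G, ‖((χ₁ g : ℂˣ) : ℂ) + ((χ₂ g : ℂˣ) : ℂ)‖ ^ 2 = 2 + 2 * (ψ g).re := by
    intro g
    have h1 : ψ g = ((χ₁ g : ℂˣ) : ℂ) * conj ((χ₂ g : ℂˣ) : ℂ) := by
      rw [hψ, MonoidHom.comp_apply, MonoidHom.div_apply, Units.coeHom_apply, Units.val_div_eq_div_val,
        div_eq_mul_inv, Complex.inv_eq_conj (hn χ₂ g)]
    rw [h1, Complex.sq_norm, Complex.normSq_add, Complex.normSq_eq_norm_sq, Complex.normSq_eq_norm_sq,
      hn χ₁ g, hn χ₂ g]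
    ring
  rw [Finset.sum_congr rfl (fun g _ => hterm g), Finset.sum_add_distrib, ← Finset.mul_sum,
    Finset.sum_const, Finset.card_univ, nsmul_eq_mul, Nat.card_eq_fintype_card]
  have hre : 0 ≤ ∑ g : G, (ψ g).re := by
    rw [← Complex.re_sum, sum_hom_units ψ]
    split_ifs
    · simp
    · simp
  linarith

/-- **Chebotarev for two characters** (DS-C (C7-iii), the corollary used in (DS-8)), from
Dirichlet's theorem for norm classes -/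
theorem dsx_chebChars (hD : DscDirichlet) : DsfChebChars := by
  intro χ₁ χ₂ hχ₁ hχ₂ T b hb ε hε
  obtain ⟨F₁, hF₁, h₁⟩ := hχ₁
  obtain ⟨F₂, hF₂, h₂⟩ := hχ₂
  haveI := hF₁
  haveI := hF₂
  have hF₁₂ : FiniteDimensional ℚ ↥(F₁ ⊔ F₂) := IntermediateField.finiteDimensional_sup F₁ F₂
  obtain ⟨F, h1, h2, hle, x, hx, hx2⟩ := dsx_exists_tc_level (F₁ ⊔ F₂) hF₁₂
  obtain ⟨i1, i2, i3, hN⟩ := dsx_level_instances F h1 h2 x hx hx2
  have hl₁ : DsfLevel χ₁ F := fun σ hσ => h₁ σ fun y hy => hσ y (hle ((le_sup_left : F₁ ≤ F₁ ⊔ F₂) hy))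
  have hl₂ : DsfLevel χ₂ F := fun σ hσ => h₂ σ fun y hy => hσ y (hle ((le_sup_right : F₂ ≤ F₁ ⊔ F₂) hy))
  set ψ₁ := dsxDesc F hN χ₁ hl₁ with hψ₁
  set ψ₂ := dsxDesc F hN χ₂ hl₂ with hψ₂
  set f : (↥F ≃ₐ[ℚ] ↥F) → ℝ := fun g => ‖((ψ₁ g : ℂˣ) : ℂ) + ((ψ₂ g : ℂˣ) : ℂ)‖ ^ 2 with hf
  have hGpos : (0 : ℝ) < Nat.card (↥F ≃ₐ[ℚ] ↥F) := by exact_mod_cast Nat.card_pos
  have hfc : ∀ g h : ↥F ≃ₐ[ℚ] ↥F, f (g * h * g⁻¹) = f h := by
    intro g h
    have e1 : ∀ ψ : (↥F ≃ₐ[ℚ] ↥F) →* ℂˣ, ψ (g * h * g⁻¹) = ψ h := by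
      intro ψ
      rw [map_mul, map_mul, map_inv, mul_comm (ψ g), mul_assoc, mul_inv_cancel, mul_one]
    simp only [hf, e1]
  have hb' : ∀ p : ℕ, p.Prime → p ∉ T → ∀ (P : Ideal (𝓞 ↥F)) (g : ↥F ≃ₐ[ℚ] ↥F),
      DsxIsFrob p P g → ‖b p‖ ^ 2 = f g := by
    intro p hp hpT P g hfr
    obtain ⟨A, φ, hA, hφ, hres⟩ := dsx_exists_frobenius_of_isFrob F hN hp hfr
    rw [hb p hp hpT A φ hA hφ, hf, ← hres, hψ₁, hψ₂]
    simp only [dsxDesc_restrictRat]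
  obtain ⟨K, hK⟩ := dsx_classfun_lower hD f (fun g => by positivity) hfc T (fun p => ‖b p‖ ^ 2)
    hb' ε hε
  refine ⟨K, fun s hs1 hs2 => ?_⟩
  obtain ⟨P, hP, hPle⟩ := hK s hs1 hs2
  refine ⟨P, hP, le_trans ?_ hPle⟩
  have h2le : 2 ≤ (∑ᶠ g, f g) / Nat.card (↥F ≃ₐ[ℚ] ↥F) := by
    rw [le_div_iff₀ hGpos]
    exact dsx_two_mul_card_le_sum ψ₁ ψ₂
  have hlog := dsx_log_nonneg hs1 hs2.le
  nlinarith

end Fermat.Agent.DS
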