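/-
DS-C (Chebotarev), crossing part, file 17: **the unconditional forms** of (C7), using helper5's
`dsc_dirichlet` (C5).

* `dsx_dirichlet_prop : DscDirichlet`;
* `dsx_chebotarev_tc_final` : Chebotarev's density theorem (Dirichlet density form) for totally
  complex Galois number fields;
* `dsx_chebCover_final : DsfChebCover`, `dsx_chebChars_final : DsfChebChars` : the two black
  boxes (C) of the final assembly DS-F.
-/
import Fermat.Agent.Lib.DS.Cheb.Cross.Chars
import Fermat.Agent.Lib.DS.Cheb.DirichletF
set_option autoImplicit false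

open NumberField

namespace Fermat.Agent.DS

/-- helper5's (C5) in the black-box form used by the crossing argument -/
theorem dsx_dirichlet_prop : DscDirichlet :=
  fun F _ _ _ m _ hLB a ha => dsc_dirichlet F m hLB a ha

/-- **Chebotarev's density theorem** (Dirichlet density form) for a totally complex Galois number
field and a conjugation-stable set `C ⊆ Gal(L/ℚ)` -/
theorem dsx_chebotarev_tc_final {L : Type} [Field L] [NumberField L] [IsGalois ℚ L]
    [IsTotallyComplex L] (C : Set (L ≃ₐ[ℚ] L))
    (hC : ∀ g c : L ≃ₐ[ℚ] L, c ∈ C → g * c * g⁻¹ ∈ C) (ε : ℝ) (hε : 0 < ε) :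
    ∃ K : ℝ, ∀ s : ℝ, 1 < s → s ≤ 2 →
      |dscSum (dsxFrobSet L (L ≃ₐ[ℚ] L) C) s -
        ((C.ncard : ℝ) / Nat.card (L ≃ₐ[ℚ] L)) * Real.log (1 / (s - 1))| ≤
        ε * Real.log (1 / (s - 1)) + K :=
  dsx_chebotarev_tc dsx_dirichlet_prop C hC ε hε

/-- **Chebotarev, cover form** (black box (C), first half, of DS-F) -/
theorem dsx_chebCover_final : DsfChebCover := dsx_chebCover dsx_dirichlet_prop

/-- **Chebotarev for two characters** (black box (C), second half, of DS-F) -/
theorem dsx_chebChars_final : DsfChebChars := dsx_chebChars dsx_dirichlet_prop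

end Fermat.Agent.DS
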