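/-
DS-C (Chebotarev), crossing part, file 3: Frobenius elements and Frobenius sets of primes, in the
vocabulary of `Lib/FrobDensity` (`L / ℚ` Galois with group `G`, `IsGaloisGroup G ℚ L`).

* `DsxIsFrob l P g` : `P` is a prime of `𝓞 L` above `l` with trivial inertia and Frobenius `g`;
* `dsxFrobSet L G C` : the prime numbers having such a `P` with `g ∈ C`.
-/
import Fermat.Agent.Lib.FrobDensity.Core
import Fermat.Agent.Lib.DS.Cheb.Cross.Sum
set_option autoImplicit false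
set_option linter.style.haveILetI false
set_option linter.unusedSectionVars false

open NumberField
open scoped Pointwise

namespace Fermat.Agent.DS

open Fermat.Agent.FrobDensity Fermat.Agent.CFT.Global

variable {L : Type} [Field L] [NumberField L] {G : Type} [Group G] [Finite G]
  [MulSemiringAction G L] [IsGaloisGroup G ℚ L]

/-- `g` is the Frobenius element of the prime `P` above `l`, which has trivial inertia -/
def DsxIsFrob (l : ℕ) (P : Ideal (𝓞 L)) (g : G) : Prop :=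
  P.IsPrime ∧ ((l : ℕ) : 𝓞 L) ∈ P ∧ Ideal.inertia G P = ⊥ ∧ IsArithFrobAt ℤ g P

lemma dsx_inertia_smul (P : Ideal (𝓞 L)) (τ : G) (h : Ideal.inertia G P = ⊥) :
    Ideal.inertia G (τ • P) = ⊥ := by
  rw [eq_bot_iff]
  intro x hx
  have h1 : τ⁻¹ * x * τ ∈ Ideal.inertia G P := by
    intro y
    have h2 := hx (τ • y)
    have h3 : τ⁻¹ • (x • τ • y - τ • y) ∈ P :=
      Ideal.mem_pointwise_smul_iff_inv_smul_mem.mp h2
    have h4 : τ⁻¹ • (x • τ • y - τ • y) = (τ⁻¹ * x * τ) • y - y := by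
      rw [smul_sub, inv_smul_smul, mul_smul, mul_smul]
    rw [← h4]
    exact h3
  rw [h, Subgroup.mem_bot] at h1
  rw [Subgroup.mem_bot]
  have : x = τ * (τ⁻¹ * x * τ) * τ⁻¹ := by group
  rw [this, h1]; group

namespace DsxIsFrob

variable {l : ℕ} {P : Ideal (𝓞 L)} {g g' : G}

lemma unique (h : DsxIsFrob l P g) (h' : DsxIsFrob l P g') : g = g' := by
  have h1 := IsArithFrobAt.mul_inv_mem_inertia h.2.2.2 h'.2.2.2
  rw [h.2.2.1, Subgroup.mem_bot] at h1
  exact mul_inv_eq_one.mp h1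

lemma conj (h : DsxIsFrob l P g) (τ : G) : DsxIsFrob l (τ • P) (τ * g * τ⁻¹) := by
  obtain ⟨hP, hl, hin, hfr⟩ := h
  haveI := hP
  refine ⟨inferInstance, ?_, dsx_inertia_smul P τ hin, hfr.conj τ⟩
  rw [Ideal.mem_pointwise_smul_iff_inv_smul_mem]
  have : τ⁻¹ • ((l : ℕ) : 𝓞 L) = ((l : ℕ) : 𝓞 L) := by
    exact map_natCast (MulSemiringAction.toRingHom G (𝓞 L) τ⁻¹) l
  rw [this]
  exact hl

lemma stabilizer_eq [hl : Fact l.Prime] (h : DsxIsFrob l P g) :
    MulAction.stabilizer G P = Subgroup.zpowers g := by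
  obtain ⟨hP, hlP, hin, hfr⟩ := h
  haveI := hP
  obtain ⟨φ, hφ, hst⟩ := Frob.exists_isArithFrobAt_zpowers (G := G) l hlP hin
  have : φ = g := DsxIsFrob.unique ⟨hP, hlP, hin, hφ⟩ ⟨hP, hlP, hin, hfr⟩
  rw [hst, this]

end DsxIsFrob

/-- an unramified prime has a Frobenius element -/
lemma dsx_exists_isFrob {l : ℕ} [hl : Fact l.Prime] {P : Ideal (𝓞 L)} (hP : P.IsPrime)
    (hlP : ((l : ℕ) : 𝓞 L) ∈ P) (hin : Ideal.inertia G P = ⊥) : ∃ g : G, DsxIsFrob l P g := by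
  haveI := hP
  obtain ⟨φ, hφ, -⟩ := Frob.exists_isArithFrobAt_zpowers (G := G) l hlP hin
  exact ⟨φ, hP, hlP, hin, hφ⟩

/-- the primes above `l` are conjugate -/
lemma dsx_exists_smul_eq {l : ℕ} [hl : Fact l.Prime] {P P' : Ideal (𝓞 L)} (hP : P.IsPrime)
    (hP' : P'.IsPrime) (hlP : ((l : ℕ) : 𝓞 L) ∈ P) (hlP' : ((l : ℕ) : 𝓞 L) ∈ P') :
    ∃ τ : G, P' = τ • P := by
  haveI := Frob.isGaloisGroup_int (L := L) (G := G)
  have h1 := liesOver_span_natCast_of_mem hlP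
  have h2 := liesOver_span_natCast_of_mem hlP'
  exact Algebra.IsInvariant.exists_smul_of_under_eq ℤ (𝓞 L) G P P'
    (h1.over.symm.trans h2.over)

/-- Frobenius elements above the same prime number are conjugate -/
lemma dsx_isConj_of_isFrob {l : ℕ} [hl : Fact l.Prime] {P P' : Ideal (𝓞 L)} {g g' : G}
    (h : DsxIsFrob l P g) (h' : DsxIsFrob l P' g') : ∃ τ : G, P' = τ • P ∧ g' = τ * g * τ⁻¹ := by
  obtain ⟨τ, hτ⟩ := dsx_exists_smul_eq (G := G) h.1 h'.1 h.2.1 h'.2.1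
  refine ⟨τ, hτ, ?_⟩
  have := h.conj τ
  rw [← hτ] at this
  exact h'.unique this

variable (L G) in
/-- the set of the prime numbers `l` having a prime `P | l` of `𝓞 L` with trivial inertia group
and Frobenius element in `C` -/
def dsxFrobSet (C : Set G) : Set ℕ :=
  {l | l.Prime ∧ ∃ (P : Ideal (𝓞 L)) (g : G), g ∈ C ∧ DsxIsFrob l P g}

lemma dsxFrobSet_mono {C C' : Set G} (h : C ⊆ C') : dsxFrobSet L G C ⊆ dsxFrobSet L G C' := by
  rintro l ⟨hl, P, g, hg, hf⟩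
  exact ⟨hl, P, g, h hg, hf⟩

/-- the Frobenius set only depends on the conjugacy class -/
lemma dsxFrobSet_singleton_conj (g τ : G) :
    dsxFrobSet L G {τ * g * τ⁻¹} = dsxFrobSet L G {g} := by
  ext l
  constructor
  · rintro ⟨hl, P, g', hg', hf⟩
    rw [Set.mem_singleton_iff] at hg'
    subst hg'
    refine ⟨hl, τ⁻¹ • P, g, rfl, ?_⟩
    have := hf.conj τ⁻¹
    convert this using 1
    group
  · rintro ⟨hl, P, g', hg', hf⟩
    rw [Set.mem_singleton_iff] at hg'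
    subst hg'
    exact ⟨hl, τ • P, _, rfl, hf.conj τ⟩

lemma dsxFrobSet_eq_iUnion (C : Set G) :
    dsxFrobSet L G C = ⋃ g ∈ C, dsxFrobSet L G {g} := by
  ext l
  simp only [Set.mem_iUnion, exists_prop]
  constructor
  · rintro ⟨hl, P, g, hg, hf⟩
    exact ⟨g, hg, hl, P, g, rfl, hf⟩
  · rintro ⟨g, hg, hl, P, g', hg', hf⟩
    rw [Set.mem_singleton_iff] at hg'
    subst hg'
    exact ⟨hl, P, g', hg, hf⟩

/-- a prime number has Frobenius elements in at most one conjugacy class -/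
lemma dsx_isConj_of_mem_frobSet {l : ℕ} {g g' : G} (h : l ∈ dsxFrobSet L G {g})
    (h' : l ∈ dsxFrobSet L G {g'}) : IsConj g g' := by
  obtain ⟨hl, P, g₁, hg₁, hf⟩ := h
  obtain ⟨-, P', g₂, hg₂, hf'⟩ := h'
  rw [Set.mem_singleton_iff] at hg₁ hg₂
  subst hg₁ hg₂
  haveI : Fact l.Prime := ⟨hl⟩
  obtain ⟨τ, -, hτ⟩ := dsx_isConj_of_isFrob hf hf'
  rw [isConj_iff]
  exact ⟨τ, hτ.symm⟩

end Fermat.Agent.DS
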