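/-
DS-C (Chebotarev), crossing part, file 5: unramified primes, the action of Frobenius elements on
roots of unity, and the number of primes above `l` with a given Frobenius element
(`dsx_card_frob_primes`: it is `|centralizer g| / orderOf g`).
-/
import Fermat.Agent.Lib.DS.Cheb.Cross.FrobSet
set_option autoImplicit false
set_option linter.style.haveILetI false
set_option linter.unusedSectionVars false

open NumberField
open scoped Pointwise

namespace Fermat.Agent.DS

open Fermat.Agent.FrobDensity Fermat.Agent.CFT.Global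

variable {L : Type} [Field L] [NumberField L] {G : Type} [Group G] [Finite G]
  [MulSemiringAction G L] [IsGaloisGroup G ℚ L]

variable (L G) in
/-- all but finitely many primes are unramified -/
lemma dsx_exists_unramified_finset : ∃ T : Finset ℕ, ∀ l : ℕ, l.Prime → l ∉ T →
    ∀ P : Ideal (𝓞 L), P.IsPrime → ((l : ℕ) : 𝓞 L) ∈ P → Ideal.inertia G P = ⊥ := by
  have hn0 : Ideal.absNorm (differentIdeal ℤ (𝓞 L)) ≠ 0 := by
    rw [Ne, Ideal.absNorm_eq_zero_iff]
    exact differentIdeal_ne_bot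
  refine ⟨(Ideal.absNorm (differentIdeal ℤ (𝓞 L))).primeFactors, fun l hl hlT P hP hlP => ?_⟩
  haveI : Fact l.Prime := ⟨hl⟩
  haveI := hP
  have hnd : ¬ l ∣ Ideal.absNorm (differentIdeal ℤ (𝓞 L)) := by
    intro hd
    exact hlT (Nat.mem_primeFactors.mpr ⟨hl, hd, hn0⟩)
  exact po_inertia_eq_bot l hlP (ramificationIdx_eq_one_of_not_dvd_absNorm_different L hl hnd P hlP)

section Kappa

variable {m : ℕ} [hm : Fact m.Prime] {ζ : L} (hζ : IsPrimitiveRoot ζ m) (κ : G →* (ZMod m)ˣ)
  (hκ : ∀ h : G, h • ζ = ζ ^ ((κ h : ZMod m).val))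

include hζ hκ

/-- a Frobenius element above `l ≠ m` acts on the `m`-th roots of unity by `ζ ↦ ζ ^ l` -/
lemma dsx_kappa_of_frob {l : ℕ} [hl : Fact l.Prime] (hlm : l ≠ m) {P : Ideal (𝓞 L)} [P.IsPrime]
    (hlP : ((l : ℕ) : 𝓞 L) ∈ P) {φ : G} (hφ : IsArithFrobAt ℤ φ P) :
    ((κ φ : (ZMod m)ˣ) : ZMod m) = (l : ZMod m) := by
  haveI : NeZero m := ⟨hm.out.ne_zero⟩
  have hcop : m.Coprime l := (Nat.coprime_primes hm.out hl.out).mpr (Ne.symm hlm)
  have hζ' : hζ.toInteger ^ m = 1 := hζ.toInteger_isPrimitiveRoot.pow_eq_one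
  have h6 := Frob.pow_smul_of_pow_eq_one hφ hζ' (Frob.natCast_notMem_of_coprime hlP hcop) 1
  rw [pow_one, pow_one, Frob.natCard_int_quotient_under l hlP] at h6
  have h7 : φ • ζ = ζ ^ l := congrArg (fun x : 𝓞 L => (x : L)) h6
  rw [hκ φ] at h7
  have hζ0 : ζ ≠ 0 := hζ.ne_zero hm.out.ne_zero
  have h8 : ζ ^ (((l : ℕ) : ℤ) - (((κ φ : ZMod m).val : ℕ) : ℤ)) = 1 := by
    rw [zpow_sub₀ hζ0, zpow_natCast, zpow_natCast, h7, div_self (pow_ne_zero _ hζ0)]
  rw [hζ.zpow_eq_one_iff_dvd] at h8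
  have h9 := (ZMod.intCast_eq_intCast_iff_dvd_sub _ _ m).mpr h8
  simpa using h9

end Kappa

/-- the number of the primes above `l` with Frobenius element exactly `g` -/
theorem dsx_card_frob_primes {l : ℕ} [hl : Fact l.Prime] {g : G} {P₀ : Ideal (𝓞 L)}
    (h₀ : DsxIsFrob l P₀ g) :
    {P : Ideal (𝓞 L) | DsxIsFrob l P g}.ncard * orderOf g =
      Nat.card (Subgroup.centralizer ({g} : Set G)) := by
  set Z : Subgroup G := Subgroup.centralizer ({g} : Set G) with hZ
  have horb : {P : Ideal (𝓞 L) | DsxIsFrob l P g} = MulAction.orbit Z P₀ := by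
    ext P
    constructor
    · intro hP
      obtain ⟨τ, hτP, hτg⟩ := dsx_isConj_of_isFrob h₀ hP
      have hτZ : τ ∈ Z := by
        rw [hZ, Subgroup.mem_centralizer_iff]
        intro x hx
        rw [Set.mem_singleton_iff] at hx
        subst hx
        have : τ * x * τ⁻¹ * τ = x * τ := by rw [← hτg]
        rw [inv_mul_cancel_right] at this
        exact this.symm
      exact ⟨⟨τ, hτZ⟩, hτP.symm⟩
    · rintro ⟨⟨τ, hτZ⟩, rfl⟩
      have h1 := h₀.conj τ
      have h2 : τ * g * τ⁻¹ = g := by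
        rw [hZ, Subgroup.mem_centralizer_iff] at hτZ
        have := hτZ g rfl
        rw [← this, mul_inv_cancel_right]
      rw [h2] at h1
      exact h1
  have hstab : Nat.card (MulAction.stabilizer Z P₀) = orderOf g := by
    have hle : Subgroup.zpowers g ⊓ Z = Subgroup.zpowers g := by
      rw [inf_eq_left, Subgroup.zpowers_le, hZ, Subgroup.mem_centralizer_iff]
      intro x hx
      rw [Set.mem_singleton_iff] at hx
      rw [hx]
    rw [po_stabilizer_sub, po_card_subgroupOf, h₀.stabilizer_eq, hle, Nat.card_zpowers]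
  rw [horb, ← MulAction.index_stabilizer, ← hstab, Subgroup.index_mul_card]

end Fermat.Agent.DS
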