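/-
DS-C (Chebotarev), crossing part, file 4: weighted sums over the primes
`dsxW f s = ∑_l f l * l ^ (-s)`; comparison outside a finite set of primes.
-/
import Fermat.Agent.Lib.DS.Cheb.Cross.Analytic
import Fermat.Agent.Lib.FrobDensity.Density
set_option autoImplicit false
set_option linter.style.haveILetI false
set_option linter.unusedSectionVars false

open NumberField

namespace Fermat.Agent.DS

open Fermat.Agent.FrobDensity

/-- weighted sums over the primes: `∑_l f l * l ^ (-s)` -/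
noncomputable def dsxW (f : ℕ → ℝ) (s : ℝ) : ℝ :=
  ∑' l : Nat.Primes, f l * ((l : ℕ) : ℝ) ^ (-s)

/-- summability of the weighted sum -/
def DsxSummable (f : ℕ → ℝ) (s : ℝ) : Prop :=
  Summable fun l : Nat.Primes => f l * ((l : ℕ) : ℝ) ^ (-s)

lemma dscSum_eq_dsxW (S : Set ℕ) (s : ℝ) :
    dscSum S s = dsxW (S.indicator fun _ => (1 : ℝ)) s := by
  refine tsum_congr fun l => ?_
  by_cases h : (l : ℕ) ∈ S
  · rw [Set.indicator_of_mem h, Set.indicator_of_mem h, one_mul]
  · rw [Set.indicator_of_notMem h, Set.indicator_of_notMem h, zero_mul]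

lemma dsxSummable_indicator (S : Set ℕ) {s : ℝ} (hs : 1 < s) :
    DsxSummable (S.indicator fun _ => (1 : ℝ)) s := by
  refine (dscSum_summable S hs).congr fun l => ?_
  by_cases h : (l : ℕ) ∈ S
  · rw [Set.indicator_of_mem h, Set.indicator_of_mem h, one_mul]
  · rw [Set.indicator_of_notMem h, Set.indicator_of_notMem h, zero_mul]

lemma dscPrimeSum_eq_dsxW (F : Type*) [Field F] [NumberField F] (m : ℕ) (a : ZMod m) (s : ℝ) :
    dscPrimeSum F m a s =
      dsxW (fun l => if ((l : ℕ) : ZMod m) = a then (idealCount F l : ℝ) else 0) s := by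
  refine tsum_congr fun l => ?_
  by_cases h : ((l : ℕ) : ZMod m) = a
  · simp only [if_pos h]
  · simp only [if_neg h, zero_mul]

lemma dsxSummable_idealCount (F : Type*) [Field F] [NumberField F] {s : ℝ} (hs : 1 < s) :
    DsxSummable (fun l => (idealCount F l : ℝ)) s :=
  zp_summable_primes F hs

lemma DsxSummable.of_le {f g : ℕ → ℝ} {s : ℝ} (hf : ∀ l, 0 ≤ f l) (hfg : ∀ l, f l ≤ g l)
    (hg : DsxSummable g s) : DsxSummable f s :=
  Summable.of_nonneg_of_le (fun l => mul_nonneg (hf _) (dn_rpow_nonneg l s))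
    (fun l => mul_le_mul_of_nonneg_right (hfg _) (dn_rpow_nonneg l s)) hg

lemma DsxSummable.const_mul {f : ℕ → ℝ} {s : ℝ} (c : ℝ) (hf : DsxSummable f s) :
    DsxSummable (fun l => c * f l) s := by
  refine (Summable.mul_left c hf).congr fun l => ?_
  ring

lemma dsxW_const_mul (c : ℝ) (f : ℕ → ℝ) (s : ℝ) :
    dsxW (fun l => c * f l) s = c * dsxW f s := by
  rw [dsxW, dsxW, ← tsum_mul_left]
  refine tsum_congr fun l => ?_
  ring

lemma dsxW_nonneg {f : ℕ → ℝ} (hf : ∀ l, 0 ≤ f l) (s : ℝ) : 0 ≤ dsxW f s :=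
  tsum_nonneg fun l => mul_nonneg (hf _) (dn_rpow_nonneg l s)

lemma dsxW_mono {f g : ℕ → ℝ} {s : ℝ} (hfg : ∀ l : ℕ, l.Prime → f l ≤ g l)
    (hf : DsxSummable f s) (hg : DsxSummable g s) : dsxW f s ≤ dsxW g s :=
  Summable.tsum_le_tsum
    (fun l => mul_le_mul_of_nonneg_right (hfg _ l.2) (dn_rpow_nonneg l s)) hf hg

/-- comparison of weighted sums outside a finite set of primes -/
lemma dsxW_le_add {f g : ℕ → ℝ} {s : ℝ} (T : Finset ℕ) (hf0 : ∀ l, 0 ≤ f l) (hg0 : ∀ l, 0 ≤ g l)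
    (hfg : ∀ l : ℕ, l.Prime → l ∉ T → f l ≤ g l)
    (hf : DsxSummable f s) (hg : DsxSummable g s) (hs : 0 ≤ s) :
    dsxW f s ≤ dsxW g s + ∑ l ∈ T, f l := by
  classical
  have hsplit : ∀ l : ℕ, f l = (if l ∈ T then 0 else f l) + (if l ∈ T then f l else 0) := by
    intro l; by_cases h : l ∈ T <;> simp [h]
  have hf1 : DsxSummable (fun l => if l ∈ T then 0 else f l) s :=
    DsxSummable.of_le (fun l => by by_cases h : l ∈ T <;> simp [h, hf0])
      (fun l => by by_cases h : l ∈ T <;> simp [h, hf0]) hf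
  have hf2 : DsxSummable (fun l => if l ∈ T then f l else 0) s :=
    DsxSummable.of_le (fun l => by by_cases h : l ∈ T <;> simp [h, hf0])
      (fun l => by by_cases h : l ∈ T <;> simp [h, hf0]) hf
  have h1 : dsxW f s = dsxW (fun l => if l ∈ T then 0 else f l) s +
      dsxW (fun l => if l ∈ T then f l else 0) s := by
    rw [dsxW, dsxW, dsxW, ← hf1.tsum_add hf2]
    refine tsum_congr fun l => ?_
    rw [← add_mul, ← hsplit]
  have h2 : dsxW (fun l => if l ∈ T then 0 else f l) s ≤ dsxW g s := by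
    refine dsxW_mono (fun l hl => ?_) hf1 hg
    by_cases h : l ∈ T
    · simp [h, hg0]
    · simp only [h, if_false]; exact hfg l hl h
  have h3 : dsxW (fun l => if l ∈ T then f l else 0) s ≤ ∑ l ∈ T, f l := by
    rw [dsxW]
    have hfin : ∀ p : Nat.Primes, p ∉ (Finset.subtype Nat.Prime T : Finset Nat.Primes) →
        (if (p : ℕ) ∈ T then f p else 0) * ((p : ℕ) : ℝ) ^ (-s) = 0 := by
      intro p hp
      rw [if_neg (fun h => hp (Finset.mem_subtype.mpr h)), zero_mul]
    rw [tsum_eq_sum hfin]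
    calc ∑ p ∈ (Finset.subtype Nat.Prime T : Finset Nat.Primes),
          (if (p : ℕ) ∈ T then f p else 0) * ((p : ℕ) : ℝ) ^ (-s)
        ≤ ∑ p ∈ (Finset.subtype Nat.Prime T : Finset Nat.Primes), f p := by
          refine Finset.sum_le_sum fun p hp => ?_
          rw [if_pos (Finset.mem_subtype.mp hp)]
          exact mul_le_of_le_one_right (hf0 _) (dn_rpow_le_one p hs)
      _ = ∑ l ∈ T.filter Nat.Prime, f l := by
          rw [← Finset.subtype_map Nat.Prime (s := T), Finset.sum_map]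
          rfl
      _ ≤ ∑ l ∈ T, f l :=
          Finset.sum_le_sum_of_subset_of_nonneg (Finset.filter_subset _ _) fun l _ _ => hf0 l
  linarith

lemma dsxW_abs_sub_le {f g : ℕ → ℝ} {s : ℝ} (T : Finset ℕ) (hf0 : ∀ l, 0 ≤ f l)
    (hg0 : ∀ l, 0 ≤ g l) (hfg : ∀ l : ℕ, l.Prime → l ∉ T → f l = g l)
    (hf : DsxSummable f s) (hg : DsxSummable g s) (hs : 0 ≤ s) :
    |dsxW f s - dsxW g s| ≤ ∑ l ∈ T, (f l + g l) := by
  have h1 := dsxW_le_add T hf0 hg0 (fun l hl hT => (hfg l hl hT).le) hf hg hs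
  have h2 := dsxW_le_add T hg0 hf0 (fun l hl hT => (hfg l hl hT).ge) hg hf hs
  have h3 : ∑ l ∈ T, f l ≤ ∑ l ∈ T, (f l + g l) :=
    Finset.sum_le_sum fun l _ => by linarith [hg0 l]
  have h4 : ∑ l ∈ T, g l ≤ ∑ l ∈ T, (f l + g l) :=
    Finset.sum_le_sum fun l _ => by linarith [hf0 l]
  rw [abs_le]
  constructor <;> linarith

end Fermat.Agent.DS
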