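/-
DS-C (Chebotarev), crossing part, file 6: the fixed field of a cyclic subgroup.

`M / ℚ` Galois with group `𝒢`, `ζ ∈ M` a primitive `m`-th root of unity (`m` prime), `κ` the
cyclotomic character, `g ∈ 𝒢` such that `κ` is injective on `⟨g⟩`, `F = M ^ ⟨g⟩`.

* `dsx_idealCount_eq` : for unramified `l ≡ κ(g)`, `#{ideals of norm l of F} = #{P | l : Frob_P = g}`;
* `dsx_normGroup_eq`, `dsx_card_normGroup` : the norm group of `F` modulo `m` is `κ(⟨g⟩)`.
-/
import Fermat.Agent.Lib.DS.Cheb.Cross.FrobCount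
import Fermat.Agent.Lib.DS.Cheb.Cross.Weighted
import Fermat.Agent.Lib.FrobDensity.Core

set_option autoImplicit false
set_option linter.style.haveILetI false
set_option linter.unusedSectionVars false

open NumberField
open scoped Pointwise

namespace Fermat.Agent.DS

open Fermat.Agent.FrobDensity Fermat.Agent.CFT.Global

lemma dsxW_antitone {f : ℕ → ℝ} (hf0 : ∀ l, 0 ≤ f l) {s t : ℝ} (hs : DsxSummable f s)
    (ht : DsxSummable f t) (hst : s ≤ t) : dsxW f t ≤ dsxW f s := by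
  refine Summable.tsum_le_tsum (fun l => ?_) ht hs
  refine mul_le_mul_of_nonneg_left ?_ (hf0 _)
  have h1 : (1 : ℝ) ≤ ((l : ℕ) : ℝ) := by exact_mod_cast l.2.one_lt.le
  exact Real.rpow_le_rpow_of_exponent_le h1 (by linarith)

variable {M : Type} [Field M] [NumberField M] {𝒢 : Type} [Group 𝒢] [Finite 𝒢]
  [MulSemiringAction 𝒢 M] [IsGaloisGroup 𝒢 ℚ M]

variable {m : ℕ} [hm : Fact m.Prime] {ζ : M} (hζ : IsPrimitiveRoot ζ m) (κ : 𝒢 →* (ZMod m)ˣ)
  (hκ : ∀ h : 𝒢, h • ζ = ζ ^ ((κ h : ZMod m).val))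
  (g : 𝒢) (hg : ∀ h ∈ Subgroup.zpowers g, κ h = 1 → h = 1)

include hζ hκ hg in
/-- **per-prime identity**: for an unramified prime `l ≠ m`, `l ≡ κ(g)` modulo `m`, the number of
ideals of norm `l` of the fixed field of `g` is the number of primes above `l` with Frobenius
element `g`. -/
theorem dsx_idealCount_eq {l : ℕ} [hl : Fact l.Prime] (hlm : l ≠ m)
    (hunr : ∀ P : Ideal (𝓞 M), P.IsPrime → ((l : ℕ) : 𝓞 M) ∈ P → Ideal.inertia 𝒢 P = ⊥)
    (hlg : (l : ZMod m) = ((κ g : (ZMod m)ˣ) : ZMod m)) :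
    idealCount ↥(poFixed M (Subgroup.zpowers g)) l =
      {P : Ideal (𝓞 M) | DsxIsFrob l P g}.ncard := by
  classical
  set H := Subgroup.zpowers g with hH
  have h1 := po_card_mul_idealCount (L := M) l H hunr
  have key : ∀ P ∈ (poPrimes M l).filter (fun P => MulAction.stabilizer 𝒢 P ≤ H),
      DsxIsFrob l P g ∧ Nat.card (MulAction.stabilizer 𝒢 P) = Nat.card H := by
    intro P hP
    rw [Finset.mem_filter, mem_poPrimes] at hP
    obtain ⟨⟨hPp, hlP⟩, hle⟩ := hP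
    haveI := hPp
    obtain ⟨φ, hφ⟩ := dsx_exists_isFrob (G := 𝒢) hPp hlP (hunr P hPp hlP)
    have hst := hφ.stabilizer_eq
    have hφH : φ ∈ H := hle (hst ▸ Subgroup.mem_zpowers φ)
    have hκφ := dsx_kappa_of_frob hζ κ hκ hlm hlP hφ.2.2.2
    have hφg : φ = g := by
      have h2 : κ (φ * g⁻¹) = 1 := by
        rw [map_mul, map_inv, mul_inv_eq_one]
        exact Units.ext (hκφ.trans hlg)
      have h3 := hg (φ * g⁻¹) (H.mul_mem hφH (H.inv_mem (Subgroup.mem_zpowers g))) h2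
      exact mul_inv_eq_one.mp h3
    rw [hφg] at hφ
    exact ⟨hφ, by rw [hφ.stabilizer_eq]⟩
  have hset : (((poPrimes M l).filter (fun P => MulAction.stabilizer 𝒢 P ≤ H) :
      Finset (Ideal (𝓞 M))) : Set (Ideal (𝓞 M))) = {P | DsxIsFrob l P g} := by
    ext P
    constructor
    · intro hP
      exact (key P (Finset.mem_coe.mp hP)).1
    · intro hP
      rw [Finset.mem_coe, Finset.mem_filter, mem_poPrimes]
      exact ⟨⟨hP.1, hP.2.1⟩, by rw [hP.stabilizer_eq]⟩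
  rw [Finset.sum_congr rfl fun P hP => (key P hP).2, Finset.sum_const, smul_eq_mul, mul_comm] at h1
  have h2 := Nat.eq_of_mul_eq_mul_right (Nat.card_pos (α := H)) h1
  rw [h2, ← hset, Set.ncard_coe_finset]

include hζ hκ in
lemma dsx_kappa_eq_of_smul_eq (h : 𝒢) (n : ℕ) (hh : h • ζ = ζ ^ n) :
    ((κ h : (ZMod m)ˣ) : ZMod m) = (n : ZMod m) := by
  haveI : NeZero m := ⟨hm.out.ne_zero⟩
  rw [hκ h] at hh
  have hζ0 : ζ ≠ 0 := hζ.ne_zero hm.out.ne_zero
  have h8 : ζ ^ (((n : ℕ) : ℤ) - (((κ h : ZMod m).val : ℕ) : ℤ)) = 1 := by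
    rw [zpow_sub₀ hζ0, zpow_natCast, zpow_natCast, hh, div_self (pow_ne_zero _ hζ0)]
  rw [hζ.zpow_eq_one_iff_dvd] at h8
  have h9 := (ZMod.intCast_eq_intCast_iff_dvd_sub _ _ m).mpr h8
  simpa using h9

include hζ hκ in
/-- the norm of a prime of the fixed field of `H`, prime to `m`, lies in `κ(H)` modulo `m` -/
lemma dsx_absNorm_prime_mem (H : Subgroup 𝒢) (𝔭 : Ideal (𝓞 ↥(poFixed M H))) (h𝔭 : 𝔭.IsPrime)
    (h0 : 𝔭 ≠ ⊥) (u : (ZMod m)ˣ) (hu : (u : ZMod m) = (Ideal.absNorm 𝔭 : ZMod m)) :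
    u ∈ H.map κ := by
  haveI : NeZero m := ⟨hm.out.ne_zero⟩
  haveI := h𝔭
  haveI := po_isGaloisGroup (L := M) H
  obtain ⟨⟨P, hPp, hPlo⟩⟩ := 𝔭.nonempty_primesOver (S := 𝓞 M)
  haveI := hPp
  haveI := hPlo
  have hP0 : P ≠ ⊥ := by
    intro h
    apply h0
    rw [hPlo.over, h]
    exact Ideal.under_bot _ _
  haveI : Finite (𝓞 M ⧸ P) := Ideal.finiteQuotientOfFreeOfNeBot P hP0
  obtain ⟨σ, hσ⟩ := IsArithFrobAt.exists_of_isInvariant (𝓞 ↥(poFixed M H)) H P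
  have hcard : Nat.card (𝓞 ↥(poFixed M H) ⧸ P.under (𝓞 ↥(poFixed M H))) = Ideal.absNorm 𝔭 := by
    rw [← hPlo.over, Ideal.absNorm_apply, Submodule.cardQuot_apply]
  have hcop : (Ideal.absNorm 𝔭).Coprime m := by
    rw [← ZMod.isUnit_iff_coprime, ← hu]
    exact u.isUnit
  have hNP : ((Ideal.absNorm 𝔭 : ℕ) : 𝓞 M) ∈ P := by
    have h1 : ((Ideal.absNorm 𝔭 : ℕ) : 𝓞 ↥(poFixed M H)) ∈ P.under (𝓞 ↥(poFixed M H)) := by
      rw [← hPlo.over]; exact Ideal.absNorm_mem 𝔭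
    simpa using h1
  have hmP : ((m : ℕ) : 𝓞 M) ∉ P := by
    intro hmP
    obtain ⟨a, b, hab⟩ := (Nat.isCoprime_iff_coprime.2 hcop)
    have h1 : ((a * (Ideal.absNorm 𝔭 : ℤ) + b * (m : ℤ) : ℤ) : 𝓞 M) ∈ P := by
      push_cast
      exact Ideal.add_mem _ (Ideal.mul_mem_left _ _ hNP) (Ideal.mul_mem_left _ _ hmP)
    rw [hab, Int.cast_one] at h1
    exact hPp.ne_top ((Ideal.eq_top_iff_one _).2 h1)
  have hζ' : hζ.toInteger ^ m = 1 := hζ.toInteger_isPrimitiveRoot.pow_eq_one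
  have h6 := AlgHom.IsArithFrobAt.apply_of_pow_eq_one hσ hζ' hmP
  rw [hcard] at h6
  have h7 : (σ : 𝒢) • ζ = ζ ^ Ideal.absNorm 𝔭 := congrArg (fun x : 𝓞 M => (x : M)) h6
  have h8 := dsx_kappa_eq_of_smul_eq hζ κ hκ (σ : 𝒢) _ h7
  refine ⟨(σ : 𝒢), σ.2, ?_⟩
  exact Units.ext (h8.trans hu.symm)

include hζ hκ in
/-- the norm group of the fixed field of `H` is contained in `κ(H)` -/
theorem dsx_normGroup_le (H : Subgroup 𝒢) : dscNormGroup ↥(poFixed M H) m ≤ H.map κ := by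
  rw [dscNormGroup, Subgroup.closure_le]
  rintro u ⟨I, hI⟩
  rw [SetLike.mem_coe]
  induction I using UniqueFactorizationMonoid.induction_on_prime generalizing u with
  | h₁ =>
    exfalso
    have : Ideal.absNorm (0 : Ideal (𝓞 ↥(poFixed M H))) = 0 := Ideal.absNorm_bot
    rw [this, Nat.cast_zero] at hI
    haveI : Fact (1 < m) := ⟨hm.out.one_lt⟩
    exact u.ne_zero hI
  | h₂ I hIu =>
    have h1 : I = ⊤ := Ideal.isUnit_iff.mp hIu
    rw [h1, Ideal.absNorm_top, Nat.cast_one] at hI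
    have : u = 1 := Units.ext hI
    rw [this]
    exact (H.map κ).one_mem
  | h₃ I p hI0 hp ih =>
    rw [map_mul, Nat.cast_mul] at hI
    have hup : IsUnit ((Ideal.absNorm p : ℕ) : ZMod m) :=
      isUnit_of_mul_isUnit_left (hI ▸ u.isUnit)
    have huI : IsUnit ((Ideal.absNorm I : ℕ) : ZMod m) :=
      isUnit_of_mul_isUnit_right (hI ▸ u.isUnit)
    have h1 := dsx_absNorm_prime_mem hζ κ hκ H p (Ideal.isPrime_of_prime hp) hp.ne_zero hup.unit
      (IsUnit.unit_spec hup)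
    have h2 := @ih huI.unit (IsUnit.unit_spec huI)
    have h3 : u = hup.unit * huI.unit := by
      apply Units.ext
      rw [Units.val_mul, IsUnit.unit_spec, IsUnit.unit_spec]
      exact hI
    rw [h3]
    exact (H.map κ).mul_mem h1 h2

include hζ hκ in
theorem dsx_kappa_mem_normGroup :
    κ g ∈ dscNormGroup ↥(poFixed M (Subgroup.zpowers g)) m := by
  set H := Subgroup.zpowers g with hH
  obtain ⟨q, hq, hqT, P, hPp, hqP, hin, hstab⟩ :=
    exists_prime_stabilizer_eq_zpowers (L := M) (G := 𝒢) g {m}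
  haveI : Fact q.Prime := ⟨hq⟩
  haveI := hPp
  have hqm : q ≠ m := fun h => hqT (by rw [h]; exact Finset.mem_singleton_self m)
  obtain ⟨φ, hφ⟩ := dsx_exists_isFrob (G := 𝒢) hPp hqP hin
  have hst := hφ.stabilizer_eq
  have hκφ := dsx_kappa_of_frob hζ κ hκ hqm hqP hφ.2.2.2
  have hf := (po_inertiaDeg_under_eq_one_iff q H hqP hin).mpr hstab.le
  have hmem : ((q : ℕ) : 𝓞 ↥(poFixed M H)) ∈ P.under (𝓞 ↥(poFixed M H)) := by
    show algebraMap (𝓞 ↥(poFixed M H)) (𝓞 M) ((q : ℕ) : 𝓞 ↥(poFixed M H)) ∈ P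
    simpa using hqP
  have hnorm := po_absNorm_eq_of_inertiaDeg q hmem hf
  have h1 : κ φ ∈ dscNormGroup ↥(poFixed M H) m := by
    refine Subgroup.subset_closure ⟨P.under (𝓞 ↥(poFixed M H)), ?_⟩
    rw [hnorm, hκφ]
  have h2 : g ∈ Subgroup.zpowers φ := by rw [← hst, hstab]; exact Subgroup.mem_zpowers g
  obtain ⟨k, hk⟩ := Subgroup.mem_zpowers_iff.mp h2
  rw [← hk, map_zpow]
  exact Subgroup.zpow_mem _ h1 k

include hζ hκ hg in
theorem dsx_normGroup_eq :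
    dscNormGroup ↥(poFixed M (Subgroup.zpowers g)) m = Subgroup.zpowers (κ g) := by
  refine le_antisymm ?_ ?_
  · rw [← MonoidHom.map_zpowers]
    exact dsx_normGroup_le hζ κ hκ _
  · rw [Subgroup.zpowers_le]
    exact dsx_kappa_mem_normGroup hζ κ hκ g

include hζ hκ hg in
theorem dsx_card_normGroup :
    Nat.card (dscNormGroup ↥(poFixed M (Subgroup.zpowers g)) m) = orderOf g := by
  rw [dsx_normGroup_eq hζ κ hκ g hg, Nat.card_zpowers]
  rw [orderOf_eq_orderOf_iff]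
  intro n
  rw [← map_pow]
  constructor
  · intro h
    exact hg _ (Subgroup.pow_mem _ (Subgroup.mem_zpowers g) n) h
  · intro h
    rw [h, map_one]

end Fermat.Agent.DS
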